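/-
S45 / [MODK-THETA] (helper31): the expansions of the ratios `G(Dτ)/G(Eτ)` at the width-one cusps
`1/(q^r M c)` of `X₀(M q^(r+s))` (helper97's `sigmaK` / `IsSigK`).  Port of `S36/Theta/Cusp2.lean`.
-/
import Fermat.Agent.S45.Mod.CuspK
import Fermat.Agent.S36.Theta.Main

set_option autoImplicit false
set_option linter.unusedSectionVars false

open Complex Function Filter ModularForm CongruenceSubgroup ModularCurve
open UpperHalfPlane hiding I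
open scoped Real MatrixGroups Manifold Topology
open Fermat.Agent.S24 Fermat.Agent.RED.ES Fermat.Agent.S36

noncomputable section

namespace Fermat.Agent.S45

local notation "𝕢" => Periodic.qParam
local notation "ι" => HahnSeries.ofPowerSeries ℤ ℂ

variable {M₀ : ℕ} (D : Wt1 M₀)

section pointwise

variable (M q r s : ℕ) [NeZero M] [NeZero q] (c B n₀ : ℤ)

theorem cd_gamK (τ : ℍ) : cd (gamK M q r c) τ = (q : ℂ) ^ r * M * c * τ + 1 := by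
  simp [cd, gamK]

theorem gamK_one_one : (gamK M q r c) 1 1 = 1 := by simp [gamK]

theorem gamK_one_zero : (gamK M q r c) 1 0 = (q : ℤ) ^ r * M * c := by simp [gamK]

theorem cdK_ne_zero (τ : ℍ) : (q : ℂ) ^ r * M * c * (τ : ℂ) + 1 ≠ 0 := by
  rw [← cd_gamK]; exact cd_ne_zero _ τ

/-- `G(D' γτ) = (q^r M c τ + 1) G(D' τ)` for `M₀ D' ∣ M q^r`. -/
theorem G_scal_gamK_low (D' : ℕ) [NeZero D'] (hD : M₀ * D' ∣ M * q ^ r) (τ : ℍ) :
    D.G (scal D' (gamK M q r c • τ)) = ((q : ℂ) ^ r * M * c * τ + 1) * D.G (scal D' τ) := by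
  rw [D.G_scal_smul D' (gamK M q r c) ?_ τ, gamK_one_one, D.chi_one, cd_gamK]
  · simp
  · rw [gamK_one_zero]
    have : ((M₀ * D' : ℕ) : ℤ) ∣ (q : ℤ) ^ r * M := by
      rw [mul_comm ((q : ℤ) ^ r)]
      exact_mod_cast hD
    exact Dvd.dvd.mul_right this c

theorem chi_pow {x : ℤ} (hc : IsCoprime x (M₀ : ℤ)) (n : ℕ) : D.χ (x ^ n) = D.χ x ^ n := by
  induction n with
  | zero => rw [pow_zero, pow_zero, D.chi_one]
  | succ n ih => rw [pow_succ, D.chi_mul _ _ (hc.pow_left) hc, ih, pow_succ]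

/-- the character value of the lower right entry of `delK`. -/
theorem chi_delK (hM : M₀ ∣ M) {n : ℕ} (hn : n ≤ s) (h : (q : ℤ) ^ s * n₀ + M * c * B = 1) :
    D.χ ((q : ℤ) ^ (s - n) * n₀) = D.χ (q : ℤ) ^ n := by
  obtain ⟨M', rfl⟩ := hM
  have e : (q : ℤ) ^ n * ((q : ℤ) ^ (s - n) * n₀) = (q : ℤ) ^ s * n₀ := by
    rw [← mul_assoc, ← pow_add, Nat.add_sub_cancel' hn]
  have c1 : IsCoprime ((q : ℤ) ^ n) (M₀ : ℤ) :=
    ⟨(q : ℤ) ^ (s - n) * n₀, M' * c * B, by push_cast at h; linear_combination h + e⟩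
  have c2 : IsCoprime ((q : ℤ) ^ (s - n) * n₀) (M₀ : ℤ) :=
    ⟨(q : ℤ) ^ n, M' * c * B, by push_cast at h; linear_combination h + e⟩
  have h1 : D.χ ((q : ℤ) ^ n * ((q : ℤ) ^ (s - n) * n₀)) = 1 := by
    rw [← D.chi_one]
    apply D.chi_mod
    refine ⟨-(M' * c * B), ?_⟩
    push_cast at h
    linear_combination h + e
  rw [D.chi_mul _ _ c1 c2] at h1
  have h2 := D.chi_sq ((q : ℤ) ^ n)
  have h3 : D.χ ((q : ℤ) ^ (s - n) * n₀) = D.χ ((q : ℤ) ^ n) := by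
    calc D.χ ((q : ℤ) ^ (s - n) * n₀)
        = (D.χ ((q : ℤ) ^ n) * D.χ ((q : ℤ) ^ n)) * D.χ ((q : ℤ) ^ (s - n) * n₀) := by
          rw [h2, one_mul]
      _ = D.χ ((q : ℤ) ^ n) * (D.χ ((q : ℤ) ^ n) * D.χ ((q : ℤ) ^ (s - n) * n₀)) := by ring
      _ = D.χ ((q : ℤ) ^ n) := by rw [h1, mul_one]
  rw [h3]
  rcases Nat.eq_zero_or_pos n with rfl | hn0
  · rw [pow_zero, pow_zero, D.chi_one]
  · exact chi_pow D (IsCoprime.pow_left_iff hn0 |>.1 c1) n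

/-- `G(d q^(r+n) γτ) = χ(q)^n (q^r M c τ + 1)/q^n · G(d q^(r-n) (τ + B/q^r))`. -/
theorem G_scal_gamK_high (d n : ℕ) [NeZero d] (hd : M₀ * d ∣ M) (hn : n ≤ s) (hsr : s ≤ r)
    (h : (q : ℤ) ^ s * n₀ + M * c * B = 1) (τ : ℍ) :
    D.G (scal (d * q ^ (r + n)) (gamK M q r c • τ))
      = (D.χ (q : ℤ) : ℂ) ^ n * (((q : ℂ) ^ r * M * c * τ + 1) / (q : ℂ) ^ n) *
        D.G (scal (d * q ^ (r - n)) (((B : ℝ) / (q : ℝ) ^ r) +ᵥ τ)) := by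
  obtain ⟨d'', hdd⟩ := hd
  have hdd' : d * (M₀ * d'') = M := by rw [hdd]; ring
  have h' : (q : ℤ) ^ s * n₀ + d * (M₀ * d'' : ℕ) * c * B = 1 := by
    rw [← h, ← hdd']; push_cast; ring
  have hq0 : (q : ℂ) ≠ 0 := by exact_mod_cast NeZero.ne q
  have hnr : n ≤ r := hn.trans hsr
  rw [scal_gamK_smul M q d (M₀ * d'') r s n c B n₀ hdd' hn hsr h']
  set w : ℍ := scal (d * q ^ (r - n)) (((B : ℝ) / (q : ℝ) ^ r) +ᵥ τ) with hw
  have key := D.G_scal_smul 1 (delK q d (M₀ * d'') s n c B n₀ hn h') (by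
    have : (delK q d (M₀ * d'') s n c B n₀ hn h') 1 0 = ((M₀ * d'' : ℕ) : ℤ) * c := by
      simp [delK]
    rw [this, mul_one]
    push_cast
    exact ⟨d'' * c, by ring⟩) w
  rw [S36.scal_one, S36.scal_one] at key
  rw [key]
  have e11 : (delK q d (M₀ * d'') s n c B n₀ hn h') 1 1 = (q : ℤ) ^ (s - n) * n₀ := by
    simp [delK]
  rw [e11, chi_delK D M q s c B n₀ ⟨d * d'', by rw [hdd]; ring⟩ hn h]
  congr 1
  push_cast
  congr 1
  have e1' : (q : ℂ) ^ r = (q : ℂ) ^ (r - n) * (q : ℂ) ^ n := by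
    rw [← pow_add, Nat.sub_add_cancel hnr]
  have e2' : (q : ℂ) ^ s = (q : ℂ) ^ (s - n) * (q : ℂ) ^ n := by
    rw [← pow_add, Nat.sub_add_cancel hn]
  have hC : (q : ℂ) ^ s * n₀ + M * c * B = 1 := by exact_mod_cast h
  have hMC : (M : ℂ) = d * (M₀ * d'') := by exact_mod_cast hdd'.symm
  have hwc : (w : ℂ) = (d : ℂ) * (q : ℂ) ^ (r - n) * ((B : ℂ) / (q : ℂ) ^ r + τ) := by
    rw [hw, coe_scal, coe_vadd]; push_cast; ring
  rw [cd, hwc, e11]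
  have e10 : (delK q d (M₀ * d'') s n c B n₀ hn h') 1 0 = ((M₀ * d'' : ℕ) : ℤ) * c := by
    simp [delK]
  rw [e10, eq_div_iff (pow_ne_zero n hq0), ← hC, hMC, e2', e1']
  push_cast
  field_simp
  ring

end pointwise

section sigma

variable [NeZero M₀] (M q r s : ℕ) [NeZero M] [NeZero q] (L : ℕ) [NeZero L]
  (hL : L = M * q ^ (r + s)) (hsr : s ≤ r) (c B n₀ : ℤ)

/-- `G(D' γ τ) = κ (q^r M c τ + 1) P(τ)`, `P` of period one with expansion `S`. -/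
structure IsGK (D' : ℕ) [NeZero D'] (κ : Kb) (S Sinv : LaurentSeries Kb) : Prop where
  ex : ∃ P : HolPer 1, (∀ τ : ℍ, D.G (scal D' (gamK M q r c • τ))
      = iotaK κ * ((q : ℂ) ^ r * M * c * τ + 1) * (P : ℍ → ℂ) τ) ∧
    qExpLaurent 1 P = coeffMap iotaK.toRingHom S
  inv : S * Sinv = 1
  ne : κ ≠ 0

theorem isGK_low (D' : ℕ) [NeZero D'] (hD : M₀ * D' ∣ M * q ^ r) :
    IsGK D M q r c D' 1 (qExpand Kb D' (D.GL Kb)) (qExpand Kb D' (D.GLinv Kb)) where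
  ex := ⟨D.GPer D', fun τ => by
      rw [G_scal_gamK_low D M q r c D' hD τ, map_one, one_mul]
      rfl, by
      rw [coeffMap_qExpand, D.coeffMap_GL]
      exact D.qExpansion_GPer D'⟩
  inv := by rw [← map_mul, D.GL_mul_GLinv, map_one]
  ne := one_ne_zero

/-- the constant `χ(q)^n / q^n`. -/
def kapK (q n : ℕ) : Kb := ((D.χ (q : ℤ) : ℤ) : Kb) ^ n / (q : Kb) ^ n

theorem kapK_ne_zero (n : ℕ) : kapK D q n ≠ 0 := by
  have h1 : ((D.χ (q : ℤ) : ℤ) : Kb) ≠ 0 := by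
    intro h0
    have := D.chiK_sq (q : ℤ)
    rw [h0] at this
    simp at this
  have hq0 : (q : Kb) ≠ 0 := by exact_mod_cast NeZero.ne q
  exact div_ne_zero (pow_ne_zero n h1) (pow_ne_zero n hq0)

theorem isGK_high (d n : ℕ) [NeZero d] (hd : M₀ * d ∣ M) (hn : n ≤ s) (hsr : s ≤ r)
    (h : (q : ℤ) ^ s * n₀ + M * c * B = 1) (ξ : Kbˣ)
    (hξ : iotaK (ξ : Kb) = (expU 1 ((B : ℝ) / (q : ℝ) ^ r) : ℂ)) :
    IsGK D M q r c (d * q ^ (r + n)) (kapK D q n)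
      (rot ξ (qExpand Kb (d * q ^ (r - n)) (D.GL Kb)))
      (rot ξ (qExpand Kb (d * q ^ (r - n)) (D.GLinv Kb))) where
  ex := ⟨transHolPer 1 ((B : ℝ) / (q : ℝ) ^ r) (D.GPer (d * q ^ (r - n))), fun τ => by
      rw [G_scal_gamK_high D M q r s c B n₀ d n hd hn hsr h τ, transHolPer_apply, kapK]
      have : ((D.GPer (d * q ^ (r - n)) : HolPer 1) : ℍ → ℂ) (((B : ℝ) / (q : ℝ) ^ r) +ᵥ τ)
          = D.G (scal (d * q ^ (r - n)) (((B : ℝ) / (q : ℝ) ^ r) +ᵥ τ)) := rfl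
      rw [this]
      simp only [map_div₀, map_pow, map_intCast, map_natCast]
      ring, by
      rw [qExpLaurent_trans, coeffMap_rot iotaK.toRingHom ξ _ hξ, coeffMap_qExpand, D.coeffMap_GL]
      congr 1
      exact D.qExpansion_GPer _⟩
  inv := by rw [← rot_mul, ← map_mul, D.GL_mul_GLinv, map_one, S24.rot_one]
  ne := kapK_ne_zero D q n

variable (hq : q.Prime) (h : (q : ℤ) ^ s * n₀ + M * c * B = 1) (ξ : Kbˣ)
  (hξ : iotaK (ξ : Kb) = (expU 1 ((B : ℝ) / (q : ℝ) ^ r) : ℂ))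

/-- **the expansion of a ratio at the cusp `1/(q^r M c)`.** -/
theorem sigmaK_ratF_of_isGK {D₁ D₂ : ℕ} [NeZero D₁] [NeZero D₂] {κ₁ κ₂ : Kb}
    {S₁ S₁i S₂ S₂i : LaurentSeries Kb} (H₁ : IsGK D M q r c D₁ κ₁ S₁ S₁i)
    (H₂ : IsGK D M q r c D₂ κ₂ S₂ S₂i) (hd₁ : M₀ * D₁ ∣ L) (hd₂ : M₀ * D₂ ∣ L) :
    sigmaK M q r s L hL hsr c B n₀ hq h ξ hξ (D.ratF L D₁ D₂ hd₁ hd₂)
      = HahnSeries.C (κ₁ / κ₂) * (S₁ * S₂i) := by
  obtain ⟨P₁, hP₁, hS₁⟩ := H₁.ex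
  obtain ⟨P₂, hP₂, hS₂⟩ := H₂.ex
  have hκ₂ : iotaK κ₂ ≠ 0 := (map_ne_zero iotaK).2 H₂.ne
  have hP₂0 : ∀ τ : ℍ, (P₂ : ℍ → ℂ) τ ≠ 0 := by
    intro τ h0
    have := hP₂ τ
    rw [h0, mul_zero] at this
    exact D.G_ne_zero _ this
  have hP₂ne : P₂ ≠ 0 := by
    intro h0
    exact hP₂0 UpperHalfPlane.I (by rw [h0]; rfl)
  rw [sigmaK_eq_iff, lauK_apply]
  have hper : perK M q r s L hL hsr c B n₀ hq h (D.ratF L D₁ D₂ hd₁ hd₂)
      = algebraMap ℂ (MerPer 1) (iotaK (κ₁ / κ₂)) *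
        (algebraMap (HolPer 1) (MerPer 1) P₁ / algebraMap (HolPer 1) (MerPer 1) P₂) := by
    rw [perK_eq_iff]
    show actMer (gamK M q r c)⁻¹ (ThetaMer L (D.ratF L D₁ D₂ hd₁ hd₂)) = _
    rw [D.ThetaMer_ratF, actMer_algebraMap, map_mul, toMer_const, toMer_div]
    have hne : algebraMap Hol Mer (inclHol 1 P₂) ≠ 0 := by
      intro h0
      have h1 := (map_eq_zero_iff _ (IsFractionRing.injective Hol Mer)).mp h0
      exact hP₂ne ((map_eq_zero_iff _ (inclHol_injective 1)).mp h1)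
    rw [mul_div_assoc', eq_div_iff hne, IsScalarTower.algebraMap_apply ℂ Hol Mer, ← map_mul,
      ← map_mul]
    congr 1
    apply Subtype.ext
    funext τ
    show D.rat D₁ D₂ ((gamK M q r c)⁻¹⁻¹ • τ) * (P₂ : ℍ → ℂ) τ
      = iotaK (κ₁ / κ₂) * (P₁ : ℍ → ℂ) τ
    rw [inv_inv, Wt1.rat, hP₁ τ, hP₂ τ, map_div₀]
    have h1 := cdK_ne_zero M q r c τ
    have h2 := hP₂0 τ
    field_simp
  rw [hper, map_mul, toLaurent_const, map_div₀ (toLaurent 1)]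
  have key : ∀ f : HolPer 1, toLaurent 1 (algebraMap (HolPer 1) (MerPer 1) f) = qExpLaurent 1 f :=
    fun f => toLaurent_algebraMap 1 f
  rw [key, key, hS₁, hS₂, map_mul, map_mul, coeffMap_C]
  have h2 : coeffMap iotaK.toRingHom S₂ * coeffMap iotaK.toRingHom S₂i = 1 := by
    rw [← map_mul, H₂.inv, map_one]
  rw [eq_inv_of_mul_eq_one_right h2, ← div_eq_mul_inv]
  rfl

end sigma

section api

variable [NeZero M₀] {M q r s L : ℕ} [NeZero M] [NeZero q] [NeZero L] {ξ : Kbˣ}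
  {σ : FN L →+* LaurentSeries Kb}

/-- every `σ` with `IsSigK` is one of the analytic `sigmaK`. -/
theorem IsSigK.exists_eq_sigmaK (H : IsSigK M q r s L ξ σ) (hq : q.Prime) (hqM : ¬ q ∣ M)
    (hsr : s ≤ r) (hL : L = M * q ^ (r + s)) (hξ : IsPrimitiveRoot ξ (q ^ r)) :
    ∃ (c B n₀ : ℤ) (h : (q : ℤ) ^ s * n₀ + M * c * B = 1)
      (hξ' : iotaK (ξ : Kb) = (expU 1 ((B : ℝ) / (q : ℝ) ^ r) : ℂ)),
      σ = sigmaK M q r s L hL hsr c B n₀ hq h ξ hξ' := by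
  have h1 : IsPrimitiveRoot (iotaK (ξ : Kb)) (q ^ r) :=
    (IsPrimitiveRoot.coe_units_iff.mpr hξ).map_of_injective iotaK.toRingHom.injective
  obtain ⟨i, -, hcop, hexp⟩ :=
    (Complex.isPrimitiveRoot_iff _ (q ^ r) (pow_ne_zero r hq.ne_zero)).1 h1
  obtain ⟨i', hi', hexp'⟩ : ∃ i' : ℕ, i'.Coprime q ∧
      Complex.exp (2 * π * Complex.I * (i' / (q ^ r : ℕ))) = iotaK (ξ : Kb) := by
    rcases Nat.eq_zero_or_pos r with rfl | hr
    · refine ⟨1, Nat.coprime_one_left q, ?_⟩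
      have : iotaK (ξ : Kb) = 1 := by
        have := h1.pow_eq_one
        simpa using this
      rw [this]
      simp
    · exact ⟨i, Nat.Coprime.coprime_dvd_right (dvd_pow_self q hr.ne') hcop, hexp⟩
  have hc : IsCoprime ((q : ℤ) ^ s) ((M * i' : ℕ) : ℤ) := by
    apply IsCoprime.pow_left
    rw [Nat.isCoprime_iff_coprime]
    exact Nat.Coprime.mul_right ((Nat.Prime.coprime_iff_not_dvd hq).mpr hqM) hi'.symm
  obtain ⟨a, b, hab⟩ := hc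
  have h : (q : ℤ) ^ s * a + M * b * (i' : ℤ) = 1 := by
    rw [← hab]; push_cast; ring
  have hξ' : iotaK (ξ : Kb) = (expU 1 (((i' : ℤ) : ℝ) / (q : ℝ) ^ r) : ℂ) := by
    rw [← hexp', coe_expU]
    congr 1
    push_cast
    ring
  refine ⟨b, i', a, h, hξ', H.ext hq hL ⟨sigmaK_algebraMap M q r s L hL hsr b i' a hq h ξ hξ',
    fun D _ hDL hD => sigmaK_jBar_of_dvd M q r s L hL hsr b i' a hq h ξ hξ' D hDL hD,
    fun d n _ hDL hd hn => sigmaK_jBar_mul M q r s L hL hsr b i' a hq h ξ hξ' d n hDL hd hn⟩⟩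

variable (H : IsSigK M q r s L ξ σ) (hq : q.Prime) (hqM : ¬ q ∣ M) (hsr : s ≤ r)
  (hL : L = M * q ^ (r + s)) (hξ : IsPrimitiveRoot ξ (q ^ r))

include H hq hqM hsr hL hξ

/-- low / low : the standard expansion. -/
theorem IsSigK.ratF_low_low (D₁ D₂ : ℕ) [NeZero D₁] [NeZero D₂] (h₁ : M₀ * D₁ ∣ M * q ^ r)
    (h₂ : M₀ * D₂ ∣ M * q ^ r) (hd₁ : M₀ * D₁ ∣ L) (hd₂ : M₀ * D₂ ∣ L) :
    σ (D.ratF L D₁ D₂ hd₁ hd₂) = D.ratS Kb D₁ D₂ := by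
  obtain ⟨c, B, n₀, h, hξ', rfl⟩ := H.exists_eq_sigmaK hq hqM hsr hL hξ
  rw [sigmaK_ratF_of_isGK D M q r s L hL hsr c B n₀ hq h ξ hξ' (isGK_low D M q r c D₁ h₁)
    (isGK_low D M q r c D₂ h₂) hd₁ hd₂, div_one, map_one, one_mul, Wt1.ratS]

/-- high / high. -/
theorem IsSigK.ratF_high_high (d e n m : ℕ) [NeZero d] [NeZero e] (hd : M₀ * d ∣ M)
    (he : M₀ * e ∣ M) (hn : n ≤ s) (hm : m ≤ s) (hd₁ : M₀ * (d * q ^ (r + n)) ∣ L)
    (hd₂ : M₀ * (e * q ^ (r + m)) ∣ L) :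
    σ (D.ratF L (d * q ^ (r + n)) (e * q ^ (r + m)) hd₁ hd₂)
      = HahnSeries.C (kapK D q n / kapK D q m) *
        rot ξ (D.ratS Kb (d * q ^ (r - n)) (e * q ^ (r - m))) := by
  obtain ⟨c, B, n₀, h, hξ', rfl⟩ := H.exists_eq_sigmaK hq hqM hsr hL hξ
  rw [sigmaK_ratF_of_isGK D M q r s L hL hsr c B n₀ hq h ξ hξ'
    (isGK_high D M q r s c B n₀ d n hd hn hsr h ξ hξ')
    (isGK_high D M q r s c B n₀ e m he hm hsr h ξ hξ') hd₁ hd₂, Wt1.ratS, rot_mul]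

/-- high / low. -/
theorem IsSigK.ratF_high_low (d n D₂ : ℕ) [NeZero d] [NeZero D₂] (hd : M₀ * d ∣ M) (hn : n ≤ s)
    (h₂ : M₀ * D₂ ∣ M * q ^ r) (hd₁ : M₀ * (d * q ^ (r + n)) ∣ L) (hd₂ : M₀ * D₂ ∣ L) :
    σ (D.ratF L (d * q ^ (r + n)) D₂ hd₁ hd₂)
      = HahnSeries.C (kapK D q n) *
        (rot ξ (qExpand Kb (d * q ^ (r - n)) (D.GL Kb)) * qExpand Kb D₂ (D.GLinv Kb)) := by
  obtain ⟨c, B, n₀, h, hξ', rfl⟩ := H.exists_eq_sigmaK hq hqM hsr hL hξ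
  rw [sigmaK_ratF_of_isGK D M q r s L hL hsr c B n₀ hq h ξ hξ'
    (isGK_high D M q r s c B n₀ d n hd hn hsr h ξ hξ') (isGK_low D M q r c D₂ h₂) hd₁ hd₂, div_one]

/-- low / high. -/
theorem IsSigK.ratF_low_high (D₁ e m : ℕ) [NeZero D₁] [NeZero e] (h₁ : M₀ * D₁ ∣ M * q ^ r)
    (he : M₀ * e ∣ M) (hm : m ≤ s) (hd₁ : M₀ * D₁ ∣ L) (hd₂ : M₀ * (e * q ^ (r + m)) ∣ L) :
    σ (D.ratF L D₁ (e * q ^ (r + m)) hd₁ hd₂)
      = HahnSeries.C (1 / kapK D q m) *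
        (qExpand Kb D₁ (D.GL Kb) * rot ξ (qExpand Kb (e * q ^ (r - m)) (D.GLinv Kb))) := by
  obtain ⟨c, B, n₀, h, hξ', rfl⟩ := H.exists_eq_sigmaK hq hqM hsr hL hξ
  rw [sigmaK_ratF_of_isGK D M q r s L hL hsr c B n₀ hq h ξ hξ' (isGK_low D M q r c D₁ h₁)
    (isGK_high D M q r s c B n₀ e m he hm hsr h ξ hξ') hd₁ hd₂]

end api

end Fermat.Agent.S45
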