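/-
S45 / [MODK-THETA] (helper31): THE TABLE for the weight one form `G`:
`E_{k,s} (G(q^i τ)/G(q^i' τ)) = κ_i/κ_i' · G(t_i)/G(t_i')`, `κ_i = (χ(q)/q)^(i - (k-s))`, for every `E` with `IsEps`.
-/
import Fermat.Agent.S45.Theta.CuspK
import Fermat.Agent.S45.Mod.Eps

set_option autoImplicit false
set_option linter.unusedSectionVars false

open ModularCurve
open Fermat.Agent.S24 Fermat.Agent.RED.ES Fermat.Agent.S36

noncomputable section

namespace Fermat.Agent.S45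

section Tab

variable {q : ℕ} [NeZero q] {z : ℕ → Kbˣ}

theorem subT_tab_low (hz : ZSys q z) {r s i : ℕ} (hsr : s ≤ r) (hi : i ≤ r)
    (X : LaurentSeries Kb) :
    subT (zT z (r + s) s i) (q ^ nK (r + s) s i) X = qExpand Kb (q ^ i) X := by
  have h2 : 2 * s ≤ r + s := by omega
  have e1 : zT z (r + s) s i = 1 := by
    rw [zT, if_pos h2, show i - (r + s - s) = 0 by omega, hz.zero]
  have e2 : nK (r + s) s i = i := by
    rw [nK, if_pos h2, if_pos (by omega)]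
  rw [subT_congr e1 (congrArg (q ^ ·) e2), subT_apply, rot_one_left]

theorem subT_tab_high (hz : ZSys q z) {r s n : ℕ} (hsr : s ≤ r) (hn : n ≤ s)
    (X : LaurentSeries Kb) :
    subT (zT z (r + s) s (r + n)) (q ^ nK (r + s) s (r + n)) X
      = rot (z r) (qExpand Kb (q ^ (r - n)) X) := by
  have h2 : 2 * s ≤ r + s := by omega
  have e1 : zT z (r + s) s (r + n) = z r ^ (q ^ (r - n)) := by
    rw [zT, if_pos h2, show r + n - (r + s - s) = n by omega]
    have := hz.pow_pow_eps n (r - n)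
    rw [show n + (r - n) = r by omega] at this
    exact this.symm
  have e2 : nK (r + s) s (r + n) = r - n := by
    rw [nK, if_pos h2]
    split_ifs <;> omega
  rw [subT_congr e1 (congrArg (q ^ ·) e2), subT_apply, rot_qExpand]

theorem zT_symm (z : ℕ → Kbˣ) {k s i : ℕ} (hs : s ≤ k) (h2 : k < 2 * s) (hi : i ≤ k) :
    zT (fun n => (z n)⁻¹) k (k - s) (k - i) = zT z k s i := by
  have a1 : zT (fun n => (z n)⁻¹) k (k - s) (k - i) = (z (k - i - (k - (k - s))))⁻¹ := by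
    unfold zT; rw [if_pos (by omega)]
  have a2 : zT z k s i = (z (k - s - i))⁻¹ := by
    unfold zT; rw [if_neg (by omega)]
  rw [a1, a2, show k - i - (k - (k - s)) = k - s - i by omega]

theorem nK_symm {k s i : ℕ} (hs : s ≤ k) (h2 : k < 2 * s) (hi : i ≤ k) :
    nK k (k - s) (k - i) = nK k s i := by
  have a1 : nK k (k - s) (k - i)
      = if k - i ≤ k - (k - s) then k - i else 2 * (k - (k - s)) - (k - i) := by
    unfold nK; rw [if_pos (by omega)]
  have a2 : nK k s i = if k - s ≤ i then k - i else s + i - (k - s) := by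
    unfold nK; rw [if_neg (by omega)]
  rw [a1, a2]
  by_cases h : k - s ≤ i
  · rw [if_pos (by omega), if_pos h]
  · rw [if_neg (by omega), if_neg h]
    omega

end Tab

variable {M q : ℕ} [NeZero M] [NeZero q]

theorem aL_jBar_th (k i : ℕ) (hi : i ≤ k) (d : ℕ) [NeZero d] (hd : d ∣ M)
    (hDL : d * q ^ i ∣ lv M q k) :
    aL Kb M q k i (jBar M d hd) = jBar (lv M q k) (d * q ^ i) hDL :=
  map_jBar_of_series (q ^ i) (aL Kb M q k i : FN M →+* FN (lv M q k))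
    (fun u => coe_aL Kb M q k i hi u) d hd hDL

/-- in the first regime `IsEps` is `IsSigK`. -/
theorem IsEps.isSigK {z : ℕ → Kbˣ} (hz : ZSys q z) (hq : q.Prime) {r s : ℕ} (hsr : s ≤ r)
    {E : FN (lv M q (r + s)) →+* LaurentSeries Kb} (H : IsEps M q z (r + s) s E) :
    IsSigK M q r s (lv M q (r + s)) (z r) E where
  const := H.c
  low := by
    intro D _ hDL hD
    obtain ⟨d, e, hd, he, rfl⟩ := exists_dvd_and_dvd_of_dvd_mul hD
    obtain ⟨i, hi, rfl⟩ := (Nat.dvd_prime_pow hq).1 he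
    have : NeZero d := ⟨fun h0 => NeZero.ne (d * q ^ i) (by rw [h0]; simp)⟩
    rw [← aL_jBar_th (r + s) i (by omega) d hd hDL, H.t i (by omega), subT_tab_low hz hsr hi,
      coe_jBar, jqNModC, jqNModC, qExpand_qExpand]
    exact qExpand_congr (mul_comm _ _) _
  high := by
    intro d n _ hDL hd hn
    rw [← aL_jBar_th (r + s) (r + n) (by omega) d hd hDL, H.t (r + n) (by omega),
      subT_tab_high hz hsr hn, coe_jBar, jqNModC, jqNModC, qExpand_qExpand]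
    congr 1
    exact qExpand_congr (mul_comm _ _) _

variable {M₀ : ℕ} [NeZero M₀] (D : Wt1 M₀)

theorem IsGK.congr {r : ℕ} {c : ℤ} {D' D'' : ℕ} [NeZero D'] [NeZero D''] (h : D' = D'') {κ : Kb}
    {S Si S' Si' : LaurentSeries Kb} (hS : S = S') (hSi : Si = Si')
    (H : IsGK D M q r c D' κ S Si) : IsGK D M q r c D'' κ S' Si' := by
  subst h hS hSi
  exact H

/-- the unified `G`-factor in the first regime. -/
theorem isGK_pow {z : ℕ → Kbˣ} (hz : ZSys q z) {r s : ℕ} (hsr : s ≤ r) (c B n₀ : ℤ)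
    (hM : M₀ ∣ M) (h : (q : ℤ) ^ s * n₀ + M * c * B = 1)
    (hξ : iotaK ((z r : Kbˣ) : Kb) = (expU 1 ((B : ℝ) / (q : ℝ) ^ r) : ℂ)) (i : ℕ)
    (hi : i ≤ r + s) :
    IsGK D M q r c (q ^ i) (kapK D q (i - r))
      (subT (zT z (r + s) s i) (q ^ nK (r + s) s i) (D.GL Kb))
      (subT (zT z (r + s) s i) (q ^ nK (r + s) s i) (D.GLinv Kb)) := by
  rcases le_or_gt i r with hir | hir
  · have h0 : kapK D q (i - r) = 1 := by
      rw [show i - r = 0 by omega, kapK, pow_zero, pow_zero, div_one]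
    rw [h0]
    exact (isGK_low D M q r c (q ^ i) (mul_dvd_mul hM (pow_dvd_pow q hir))).congr D rfl
      (subT_tab_low hz hsr hir _).symm (subT_tab_low hz hsr hir _).symm
  · obtain ⟨n, rfl⟩ : ∃ n, i = r + n := ⟨i - r, by omega⟩
    have hn : n ≤ s := by omega
    rw [show r + n - r = n by omega]
    refine (isGK_high D M q r s c B n₀ 1 n (by rwa [mul_one]) hn hsr h (z r) hξ).congr D
      (one_mul _) ?_ ?_
    · rw [subT_tab_high hz hsr hn]
      congr 1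
      exact qExpand_congr (one_mul _) _
    · rw [subT_tab_high hz hsr hn]
      congr 1
      exact qExpand_congr (one_mul _) _

/-- **THE TABLE for `G`, first regime.** -/
theorem IsEps.ratF_first {z : ℕ → Kbˣ} (hz : ZSys q z) (hq : q.Prime) (hqM : ¬ q ∣ M)
    (hM : M₀ ∣ M) {r s : ℕ} (hsr : s ≤ r) {E : FN (lv M q (r + s)) →+* LaurentSeries Kb}
    (H : IsEps M q z (r + s) s E) (i i' : ℕ) (hi : i ≤ r + s) (hi' : i' ≤ r + s)
    (h₁ : M₀ * q ^ i ∣ lv M q (r + s)) (h₂ : M₀ * q ^ i' ∣ lv M q (r + s)) :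
    E (D.ratF (lv M q (r + s)) (q ^ i) (q ^ i') h₁ h₂)
      = HahnSeries.C (kapK D q (i - r) / kapK D q (i' - r)) *
        (subT (zT z (r + s) s i) (q ^ nK (r + s) s i) (D.GL Kb) *
          subT (zT z (r + s) s i') (q ^ nK (r + s) s i') (D.GLinv Kb)) := by
  obtain ⟨c, B, n₀, h, hξ', rfl⟩ := (H.isSigK hz hq hsr).exists_eq_sigmaK hq hqM hsr
    (lv_eq M q (r + s)) (hz.prim_eps hq r)
  exact sigmaK_ratF_of_isGK D M q r s _ _ hsr c B n₀ hq h (z r) hξ'
    (isGK_pow D hz hsr c B n₀ hM h hξ' i hi) (isGK_pow D hz hsr c B n₀ hM h hξ' i' hi') h₁ h₂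

/-- **THE TABLE for `G`, first regime** (level `k`). -/
theorem IsEps.ratF_first' {z : ℕ → Kbˣ} (hz : ZSys q z) (hq : q.Prime) (hqM : ¬ q ∣ M)
    (hM : M₀ ∣ M) {k s : ℕ} (h2 : 2 * s ≤ k) {E : FN (lv M q k) →+* LaurentSeries Kb}
    (H : IsEps M q z k s E) (i i' : ℕ) (hi : i ≤ k) (hi' : i' ≤ k)
    (h₁ : M₀ * q ^ i ∣ lv M q k) (h₂ : M₀ * q ^ i' ∣ lv M q k) :
    E (D.ratF (lv M q k) (q ^ i) (q ^ i') h₁ h₂)
      = HahnSeries.C (kapK D q (i - (k - s)) / kapK D q (i' - (k - s))) *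
        (subT (zT z k s i) (q ^ nK k s i) (D.GL Kb) *
          subT (zT z k s i') (q ^ nK k s i') (D.GLinv Kb)) := by
  obtain ⟨r, rfl⟩ : ∃ r, k = r + s := ⟨k - s, by omega⟩
  rw [Nat.add_sub_cancel]
  exact H.ratF_first D hz hq hqM hM (by omega) i i' hi hi' h₁ h₂

/-- the concrete Atkin–Lehner involution exchanges `u (q^i τ)` and `u (q^(k-i) τ)`. -/
theorem alW_aL (k : ℕ) (x y : ℤ) (h : ((q ^ k : ℕ) : ℤ) * x - M * y = 1) (i : ℕ) (hi : i ≤ k)
    (u : FN M) :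
    alW (lv M q k) M (q ^ k) (lv_eq M q k) x y h (aL Kb M q k i u) = aL Kb M q k (k - i) u := by
  have hL := lv_eq M q k
  have : (alW (lv M q k) M (q ^ k) hL x y h).comp
      (aL Kb M q k i : FN M →+* FN (lv M q k))
      = (aL Kb M q k (k - i) : FN M →+* FN (lv M q k)) := by
    apply ringHom_ext_bar
    · intro c
      simp only [RingHom.comp_apply, RingHom.coe_coe, AlgHom.commutes]
      exact alW_algebraMap _ _ _ _ _ _ _ c
    · intro d _ hd
      simp only [RingHom.comp_apply]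
      have hD1 : d * q ^ i ∣ lv M q k := by
        rw [hL]; exact mul_dvd_mul hd (pow_dvd_pow q hi)
      have hD2 : d * q ^ (k - i) ∣ lv M q k := by
        rw [hL]; exact mul_dvd_mul hd (pow_dvd_pow q (by omega))
      rw [map_jBar_of_series (q ^ i) (aL Kb M q k i : FN M →+* FN (lv M q k))
          (fun u => coe_aL Kb M q k i hi u) d hd hD1,
        map_jBar_of_series (q ^ (k - i)) (aL Kb M q k (k - i) : FN M →+* FN (lv M q k))
          (fun u => coe_aL Kb M q k (k - i) (by omega) u) d hd hD2]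
      exact alW_jBar' _ _ _ _ _ _ _ d (q ^ i) (q ^ (k - i)) _ _ hd
        (by rw [← pow_add, Nat.add_sub_cancel' hi]) (mul_comm _ _) (mul_comm _ _) _ _
  exact congrArg (fun φ => φ u) this

/-- second regime `∘ W` = first regime for `z⁻¹`. -/
theorem IsEps.comp_alW {z : ℕ → Kbˣ} {k s : ℕ} (hs : s ≤ k) (h2 : k < 2 * s)
    {E : FN (lv M q k) →+* LaurentSeries Kb} (H : IsEps M q z k s E) (x y : ℤ)
    (h : ((q ^ k : ℕ) : ℤ) * x - M * y = 1) :
    IsEps M q (fun n => (z n)⁻¹) k (k - s)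
      (E.comp (alW (lv M q k) M (q ^ k) (lv_eq M q k) x y h)) where
  c a := by rw [RingHom.comp_apply, alW_algebraMap, H.c]
  t i hi u := by
    rw [RingHom.comp_apply, alW_aL k x y h i hi u, H.t (k - i) (by omega) u]
    have e1 := zT_symm z hs h2 (show k - i ≤ k by omega)
    have e2 := nK_symm hs h2 (show k - i ≤ k by omega)
    rw [show k - (k - i) = i by omega] at e1 e2
    exact subT_congr e1.symm (congrArg (q ^ ·) e2.symm) _

/-- the constant of the symmetry. -/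
theorem kapK_symm (hc : IsCoprime (q : ℤ) (M₀ : ℤ)) {k s i : ℕ} (hs : s ≤ k) (hi : i ≤ k) :
    ((D.χ ((q ^ (k - i) : ℕ) : ℤ) : ℤ) : Kb) * ((q ^ (k - i) : ℕ) : Kb) * kapK D q (k - i - s)
      = (((D.χ (q : ℤ) : ℤ) : Kb) ^ s * (q : Kb) ^ s) * kapK D q (i - (k - s)) := by
  have hq0 : (q : Kb) ≠ 0 := by exact_mod_cast NeZero.ne q
  have hX : ((D.χ (q : ℤ) : ℤ) : Kb) * ((D.χ (q : ℤ) : ℤ) : Kb) = 1 := D.chiK_sq (q : ℤ)
  have hχ : D.χ ((q ^ (k - i) : ℕ) : ℤ) = D.χ (q : ℤ) ^ (k - i) := by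
    push_cast
    exact chi_pow D hc _
  rw [hχ]
  push_cast
  set X : Kb := ((D.χ (q : ℤ) : ℤ) : Kb) with hXdef
  set Q : Kb := (q : Kb) with hQdef
  have hX2 : ∀ m : ℕ, X ^ m * X ^ m = 1 := fun m => by rw [← mul_pow, hX, one_pow]
  unfold kapK
  rw [← hXdef, ← hQdef]
  rcases le_total i (k - s) with h | h
  · obtain ⟨m, hm⟩ : ∃ m, k - i = s + m := ⟨k - i - s, by omega⟩
    rw [show k - i - s = m by omega, show i - (k - s) = 0 by omega, hm, pow_zero, pow_zero, div_one,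
      mul_one, pow_add, pow_add]
    have hQm : Q ^ m ≠ 0 := pow_ne_zero m hq0
    calc X ^ s * X ^ m * (Q ^ s * Q ^ m) * (X ^ m / Q ^ m)
        = X ^ s * Q ^ s * (X ^ m * X ^ m) * (Q ^ m / Q ^ m) := by ring
      _ = X ^ s * Q ^ s := by rw [hX2, div_self hQm, mul_one, mul_one]
  · obtain ⟨n, hn⟩ : ∃ n, s = (k - i) + n := ⟨s - (k - i), by omega⟩
    rw [show k - i - s = 0 by omega, show i - (k - s) = n by omega, pow_zero, pow_zero, div_one,
      mul_one]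
    conv_rhs => rw [hn, pow_add, pow_add]
    have hQn : Q ^ n ≠ 0 := pow_ne_zero n hq0
    symm
    calc X ^ (k - i) * X ^ n * (Q ^ (k - i) * Q ^ n) * (X ^ n / Q ^ n)
        = X ^ (k - i) * Q ^ (k - i) * (X ^ n * X ^ n) * (Q ^ n / Q ^ n) := by ring
      _ = X ^ (k - i) * Q ^ (k - i) := by rw [hX2, div_self hQn, mul_one, mul_one]

/-- **THE TABLE for `G`.**  `E_{k,s} (G(q^i τ)/G(q^i' τ)) = κ_i/κ_i' · G(t_i)/G(t_i')`. -/
theorem IsEps.ratF {z : ℕ → Kbˣ} (hz : ZSys q z) (hq : q.Prime) (hqM : ¬ q ∣ M)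
    (hM : M₀ ∣ M) {k s : ℕ} (hs : s ≤ k) {E : FN (lv M q k) →+* LaurentSeries Kb}
    (H : IsEps M q z k s E) (i i' : ℕ) (hi : i ≤ k) (hi' : i' ≤ k)
    (h₁ : M₀ * q ^ i ∣ lv M q k) (h₂ : M₀ * q ^ i' ∣ lv M q k) :
    E (D.ratF (lv M q k) (q ^ i) (q ^ i') h₁ h₂)
      = HahnSeries.C (kapK D q (i - (k - s)) / kapK D q (i' - (k - s))) *
        (subT (zT z k s i) (q ^ nK k s i) (D.GL Kb) *
          subT (zT z k s i') (q ^ nK k s i') (D.GLinv Kb)) := by
  rcases Nat.lt_or_ge k (2 * s) with h2 | h2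
  swap
  · exact H.ratF_first' D hz hq hqM hM h2 i i' hi hi' h₁ h₂
  have hcop : IsCoprime ((q ^ k : ℕ) : ℤ) (M : ℤ) := by
    apply Nat.isCoprime_iff_coprime.mpr
    exact Nat.Coprime.pow_left k ((Nat.Prime.coprime_iff_not_dvd hq).mpr hqM)
  obtain ⟨a, b, hab⟩ := hcop
  have h : ((q ^ k : ℕ) : ℤ) * a - M * (-b) = 1 := by linear_combination hab
  have hc : IsCoprime (q : ℤ) (M₀ : ℤ) := by
    rw [Nat.isCoprime_iff_coprime]
    exact (Nat.Prime.coprime_iff_not_dvd hq).mpr fun h => hqM (h.trans hM)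
  have H' := H.comp_alW hs h2 a (-b) h
  have hW := D.alW_ratF (lv M q k) M (q ^ k) (lv_eq M q k) a (-b) h hM (q ^ i) (q ^ (k - i))
    (q ^ i') (q ^ (k - i')) (by rw [← pow_add, Nat.add_sub_cancel' hi])
    (by rw [← pow_add, Nat.add_sub_cancel' hi'])
  have e0 : E (D.ratF (lv M q k) (q ^ i) (q ^ i') h₁ h₂)
      = (E.comp (alW (lv M q k) M (q ^ k) (lv_eq M q k) a (-b) h))
        (alW (lv M q k) M (q ^ k) (lv_eq M q k) a (-b) h (D.ratF (lv M q k) (q ^ i) (q ^ i') h₁ h₂)) := by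
    rw [RingHom.comp_apply, alW_alW]
  rw [e0, hW, map_mul, H'.c, H'.ratF_first' D hz.inv_eps hq hqM hM (by omega) (k - i) (k - i')
    (by omega) (by omega), ← mul_assoc, ← map_mul,
    subT_congr (zT_symm z hs h2 hi) (congrArg (q ^ ·) (nK_symm hs h2 hi)),
    subT_congr (zT_symm z hs h2 hi') (congrArg (q ^ ·) (nK_symm hs h2 hi'))]
  congr 2
  rw [show k - (k - s) = s by omega]
  have k1 := kapK_symm D hc hs hi
  have k2 := kapK_symm D hc hs hi'
  have hq0 : (q : Kb) ≠ 0 := by exact_mod_cast NeZero.ne q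
  have hχ2 := D.chiK_sq ((q ^ (k - i') : ℕ) : ℤ)
  have hχq : ((D.χ (q : ℤ) : ℤ) : Kb) ≠ 0 := by
    intro h0
    have := D.chiK_sq (q : ℤ)
    rw [h0] at this
    simp at this
  have hc0 : ((D.χ (q : ℤ) : ℤ) : Kb) ^ s * (q : Kb) ^ s ≠ 0 :=
    mul_ne_zero (pow_ne_zero s hχq) (pow_ne_zero s hq0)
  have hk' := kapK_ne_zero D q (k - i' - s)
  have hk'' := kapK_ne_zero D q (i' - (k - s))
  have hQ' : ((q ^ (k - i') : ℕ) : Kb) ≠ 0 := by
    exact_mod_cast pow_ne_zero _ (NeZero.ne q)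
  have hχ' : ((D.χ ((q ^ (k - i') : ℕ) : ℤ) : ℤ) : Kb) ≠ 0 := by
    intro h0
    rw [h0] at hχ2
    simp at hχ2
  rw [Wt1.alConst, eq_div_iff hk'']
  have e3 : ((D.χ ((q ^ (k - i) : ℕ) : ℤ) : ℤ) : Kb) * ((D.χ ((q ^ (k - i') : ℕ) : ℤ) : ℤ) : Kb) *
      (((q ^ (k - i) : ℕ) : Kb) / ((q ^ (k - i') : ℕ) : Kb)) *
      (kapK D q (k - i - s) / kapK D q (k - i' - s))
      = (((D.χ ((q ^ (k - i) : ℕ) : ℤ) : ℤ) : Kb) * ((q ^ (k - i) : ℕ) : Kb) * kapK D q (k - i - s)) /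
        (((D.χ ((q ^ (k - i') : ℕ) : ℤ) : ℤ) : Kb) * ((q ^ (k - i') : ℕ) : Kb) *
          kapK D q (k - i' - s)) := by
    have hinv : (((D.χ ((q ^ (k - i') : ℕ) : ℤ) : ℤ) : Kb))⁻¹
        = ((D.χ ((q ^ (k - i') : ℕ) : ℤ) : ℤ) : Kb) := inv_eq_of_mul_eq_one_left hχ2
    rw [div_eq_mul_inv _ (_ * _ * _), mul_inv, mul_inv, hinv]
    ring
  rw [e3, k1, k2]
  field_simp

end Fermat.Agent.S45
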