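/-
S45 / [THETA_k] (helper31): the theta ratios `th k i i' = G(q^i τ)/G(q^i' τ)` in the context `D : CtxK`:
expansions, reductions (`RedsTo`), valuations along ALL the components of level `M q^k`, integrality.
-/
import Fermat.Agent.S45.Theta.EpsK
import Fermat.Agent.S45.Mod.Ctx
import Fermat.Agent.S36.Theta.CtxAB

set_option autoImplicit false
set_option linter.unusedSectionVars false

open ModularCurve
open Fermat.Agent.S24 Fermat.Agent.S36 Fermat.Agent.RED.Gauss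

noncomputable section

namespace Fermat.Agent.S45

theorem mul_pow_dvd_lv {M₀ M : ℕ} (q : ℕ) (hW : M₀ ∣ M) {k i : ℕ} (hi : i ≤ k) :
    M₀ * q ^ i ∣ lv M q k := by
  rw [lv_eq]
  exact mul_dvd_mul hW (pow_dvd_pow q hi)

namespace CtxK

variable (D : CtxK) {M₀ : ℕ} [NeZero M₀] (W : Wt1 M₀) (hW : M₀ ∣ D.M)

/-- `G(q^i τ)/G(q^i' τ)` at level `M q^k` (the indices are truncated at `k`). -/
def th (k i i' : ℕ) : D.Fk k :=
  W.rat0 D.A (lv D.M D.q k) (D.q ^ min i k) (D.q ^ min i' k)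
    (mul_pow_dvd_lv D.q hW (min_le_right i k)) (mul_pow_dvd_lv D.q hW (min_le_right i' k))

theorem coe_th (k i i' : ℕ) :
    ((D.th W hW k i i' : D.Fk k) : LaurentSeries D.K)
      = W.ratS D.K (D.q ^ min i k) (D.q ^ min i' k) := rfl

theorem th_eq {k i i' : ℕ} (hi : i ≤ k) (hi' : i' ≤ k)
    (h₁ : M₀ * D.q ^ i ∣ lv D.M D.q k) (h₂ : M₀ * D.q ^ i' ∣ lv D.M D.q k) :
    D.th W hW k i i' = W.rat0 D.A (lv D.M D.q k) (D.q ^ i) (D.q ^ i') h₁ h₂ := by
  apply Subtype.ext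
  show W.ratS D.K (D.q ^ min i k) (D.q ^ min i' k) = W.ratS D.K (D.q ^ i) (D.q ^ i')
  simp only [min_eq_left hi, min_eq_left hi']

theorem th_mul_th (k i i' i'' : ℕ) :
    D.th W hW k i i' * D.th W hW k i' i'' = D.th W hW k i i'' := by
  apply Subtype.ext
  show W.ratS D.K (D.q ^ min i k) (D.q ^ min i' k) * W.ratS D.K (D.q ^ min i' k) (D.q ^ min i'' k)
    = W.ratS D.K (D.q ^ min i k) (D.q ^ min i'' k)
  have h1 : qExpand D.K (D.q ^ min i' k) (W.GL D.K) * qExpand D.K (D.q ^ min i' k) (W.GLinv D.K)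
      = 1 := by
    rw [← map_mul, W.GL_mul_GLinv, map_one]
  simp only [Wt1.ratS]
  linear_combination (qExpand D.K (D.q ^ min i k) (W.GL D.K)
    * qExpand D.K (D.q ^ min i'' k) (W.GLinv D.K)) * h1

theorem th_self (k i : ℕ) : D.th W hW k i i = 1 := by
  apply Subtype.ext
  show W.ratS D.K (D.q ^ min i k) (D.q ^ min i k) = 1
  rw [Wt1.ratS, ← map_mul, W.GL_mul_GLinv, map_one]

theorem th_mul_swap (k i i' : ℕ) : D.th W hW k i i' * D.th W hW k i' i = 1 := by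
  rw [th_mul_th, th_self]

theorem th_ne_zero (k i i' : ℕ) : D.th W hW k i i' ≠ 0 :=
  left_ne_zero_of_mul_eq_one (D.th_mul_swap W hW k i i')

theorem th_inv (k i i' : ℕ) : (D.th W hW k i i')⁻¹ = D.th W hW k i' i :=
  inv_eq_of_mul_eq_one_right (D.th_mul_swap W hW k i i')

/-- **the expansions.** -/
theorem e_th {k s i i' : ℕ} (hs : s ≤ k) (hi : i ≤ k) (hi' : i' ≤ k) :
    D.e k s (D.th W hW k i i')
      = HahnSeries.C (kapK W D.q (i - (k - s)) / kapK W D.q (i' - (k - s))) *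
        (subT (zT D.z k s i) (D.q ^ nK k s i) (W.GL Kb) *
          subT (zT D.z k s i') (D.q ^ nK k s i') (W.GLinv Kb)) := by
  rw [D.th_eq W hW hi hi' (mul_pow_dvd_lv D.q hW hi) (mul_pow_dvd_lv D.q hW hi'), e_apply,
    W.embF0_rat0]
  exact (D.isEps k s hs).ratF W D.hz D.hq D.hqM hW hs i i' hi hi' _ _

/-! ### reductions -/

theorem qExpand_pow_GL_char (n : ℕ) :
    qExpand D.k (D.q ^ n) (W.GL D.k) = W.GL D.k ^ (D.q ^ n) := by
  induction n with
  | zero =>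
    rw [qExpand_congr' (pow_zero D.q), qExpand_one_apply, pow_zero, pow_one]
  | succ n ih =>
    rw [qExpand_congr' (pow_succ D.q n), ← qExpand_qExpand, W.qExpand_GL_char D.k D.q D.hq, map_pow,
      ih, ← pow_mul, pow_succ]

theorem qExpand_pow_GLinv_char (n : ℕ) :
    qExpand D.k (D.q ^ n) (W.GLinv D.k) = W.GLinv D.k ^ (D.q ^ n) := by
  induction n with
  | zero =>
    rw [qExpand_congr' (pow_zero D.q), qExpand_one_apply, pow_zero, pow_one]
  | succ n ih =>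
    rw [qExpand_congr' (pow_succ D.q n), ← qExpand_qExpand, W.qExpand_GLinv_char D.k D.q D.hq,
      map_pow, ih, ← pow_mul, pow_succ]

theorem redsTo_GL : RedsTo D.π (W.GL Kb) (W.GL D.k) := by
  have := redsTo_iota (π := D.π) (W.GL D.A)
  rwa [show iota D.A (W.GL D.A) = W.GL Kb from W.coeffMap_GL _,
    show pi D.π (W.GL D.A) = W.GL D.k from W.coeffMap_GL _] at this

theorem redsTo_GLinv : RedsTo D.π (W.GLinv Kb) (W.GLinv D.k) := by
  have := redsTo_iota (π := D.π) (W.GLinv D.A)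
  rwa [show iota D.A (W.GLinv D.A) = W.GLinv Kb from W.coeffMap_GLinv _,
    show pi D.π (W.GLinv D.A) = W.GLinv D.k from W.coeffMap_GLinv _] at this

theorem redsTo_chiS : RedsTo D.π (W.chiS Kb D.q) (W.chiS D.k D.q) := by
  have := redsTo_iota (π := D.π) (W.chiS D.A D.q)
  rwa [W.iota_chiS, W.pi_chiS] at this

theorem redsTo_subT_GL {k s i : ℕ} (hi : i ≤ k) (n : ℕ) :
    RedsTo D.π (subT (zT D.z k s i) (D.q ^ n) (W.GL Kb)) (W.GL D.k ^ (D.q ^ n)) := by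
  rw [subT_apply, ← D.qExpand_pow_GL_char W n]
  exact (redsTo_rotK D.hA (D.redsTo_GL W) _ k (zT_pow_eq_one D.hz k s i hi)).qExpand _

theorem redsTo_subT_GLinv {k s i : ℕ} (hi : i ≤ k) (n : ℕ) :
    RedsTo D.π (subT (zT D.z k s i) (D.q ^ n) (W.GLinv Kb)) (W.GLinv D.k ^ (D.q ^ n)) := by
  rw [subT_apply, ← D.qExpand_pow_GLinv_char W n]
  exact (redsTo_rotK D.hA (D.redsTo_GLinv W) _ k (zT_pow_eq_one D.hz k s i hi)).qExpand _

theorem kapK_const (n n' : ℕ) :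
    ((D.q : ℕ) : LaurentSeries Kb) ^ n / ((D.q : ℕ) : LaurentSeries Kb) ^ n'
      * HahnSeries.C (kapK W D.q n / kapK W D.q n') = W.chiS Kb D.q ^ (n + n') := by
  have hq0 : ((D.q : ℕ) : Kb) ≠ 0 := Nat.cast_ne_zero.2 D.hq.ne_zero
  have h1 : ((D.q : ℕ) : LaurentSeries Kb) = HahnSeries.C ((D.q : ℕ) : Kb) := (map_natCast _ _).symm
  have h2 : W.chiS Kb D.q = HahnSeries.C ((W.χ (D.q : ℤ) : ℤ) : Kb) := (map_intCast _ _).symm
  rw [h1, h2, ← map_pow, ← map_pow, ← map_div₀, ← map_mul, ← map_pow]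
  congr 1
  have hχ := W.chiK_sq (D.q : ℤ)
  set X : Kb := ((W.χ (D.q : ℤ) : ℤ) : Kb)
  set Q : Kb := ((D.q : ℕ) : Kb)
  have hX : X ≠ 0 := left_ne_zero_of_mul_eq_one hχ
  have hXn : X ^ n' * X ^ n' = 1 := by rw [← mul_pow, hχ, one_pow]
  unfold kapK
  have hQn : Q ^ n ≠ 0 := pow_ne_zero _ hq0
  have hQn' : Q ^ n' ≠ 0 := pow_ne_zero _ hq0
  have hXn' : X ^ n' ≠ 0 := pow_ne_zero _ hX
  show Q ^ n / Q ^ n' * (X ^ n / Q ^ n / (X ^ n' / Q ^ n')) = X ^ (n + n')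
  rw [pow_add]
  calc Q ^ n / Q ^ n' * (X ^ n / Q ^ n / (X ^ n' / Q ^ n'))
      = X ^ n / X ^ n' * ((Q ^ n / Q ^ n) * (Q ^ n' / Q ^ n')) := by
        field_simp
    _ = X ^ n / X ^ n' := by rw [div_self hQn, div_self hQn', mul_one, mul_one]
    _ = X ^ n * X ^ n' := by
        rw [div_eq_iff hXn', mul_assoc, hXn, mul_one]

/-- **the reductions**: with `a = k - s`, `q^{(i-a)⁺ - (i'-a)⁺} G(q^i τ)/G(q^i' τ)` reduces along the component `s` to
`χ(q)^{..} Gbar^{q^{n_i} - q^{n_i'}}`. -/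
theorem redsTo_th {k s i i' : ℕ} (hs : s ≤ k) (hi : i ≤ k) (hi' : i' ≤ k) :
    RedsTo D.π (D.e k s (((D.q : ℕ) : D.Fk k) ^ (i - (k - s)) / ((D.q : ℕ) : D.Fk k) ^ (i' - (k - s))
        * D.th W hW k i i'))
      (W.chiS D.k D.q ^ ((i - (k - s)) + (i' - (k - s)))
        * (W.GL D.k ^ (D.q ^ nK k s i) * W.GLinv D.k ^ (D.q ^ nK k s i'))) := by
  rw [map_mul, map_div₀, map_pow, map_pow, map_natCast, D.e_th W hW hs hi hi', ← mul_assoc,
    D.kapK_const W]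
  exact ((D.redsTo_chiS W).pow _).mul ((D.redsTo_subT_GL W hi _).mul (D.redsTo_subT_GLinv W hi' _))

theorem red_th_ne_zero (n x y : ℕ) :
    W.chiS D.k D.q ^ n * (W.GL D.k ^ x * W.GLinv D.k ^ y) ≠ 0 := by
  have h1 : W.GLinv D.k ≠ 0 := right_ne_zero_of_mul_eq_one (W.GL_mul_GLinv D.k)
  exact mul_ne_zero (pow_ne_zero _ (W.chiS_ne_zero D.q D.k))
    (mul_ne_zero (pow_ne_zero _ (W.GL_ne_zero D.k)) (pow_ne_zero _ h1))

/-! ### valuations -/

theorem natCast_Fk_ne_zero (k : ℕ) : ((D.q : ℕ) : D.Fk k) ≠ 0 := Nat.cast_ne_zero.2 D.hq.ne_zero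

theorem valq_lt {k s : ℕ} (hs : s ≤ k) : (D.OO k s hs).valuation ((D.q : ℕ) : D.Fk k) < 1 :=
  gv_val_natCast_lt_one D.hπ (D.disc k s hs) D.q

theorem valq_ne_zero {k s : ℕ} (hs : s ≤ k) : (D.OO k s hs).valuation ((D.q : ℕ) : D.Fk k) ≠ 0 :=
  (Valuation.ne_zero_iff _).2 (D.natCast_Fk_ne_zero k)

theorem val_th {k s i i' : ℕ} (hs : s ≤ k) (hi : i ≤ k) (hi' : i' ≤ k) :
    (D.OO k s hs).valuation (D.th W hW k i i')
        * (D.OO k s hs).valuation ((D.q : ℕ) : D.Fk k) ^ (i - (k - s))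
      = (D.OO k s hs).valuation ((D.q : ℕ) : D.Fk k) ^ (i' - (k - s)) := by
  have h := D.val_eq_one hs (D.redsTo_th W hW hs hi hi') (D.red_th_ne_zero W _ _ _)
  rw [map_mul, map_div₀, map_pow, map_pow] at h
  have h0 := pow_ne_zero (i' - (k - s)) (D.valq_ne_zero hs)
  rw [div_mul_eq_mul_div, div_eq_one_iff_eq h0] at h
  rw [← h, mul_comm]

/-- both indices on the Frobenius side: a unit. -/
theorem val_th_low {k s i i' : ℕ} (hs : s ≤ k) (hi : i ≤ k - s) (hi' : i' ≤ k - s) :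
    (D.OO k s hs).valuation (D.th W hW k i i') = 1 := by
  have h := D.val_th W hW hs (i := i) (i' := i') (by omega) (by omega)
  rwa [Nat.sub_eq_zero_of_le hi, Nat.sub_eq_zero_of_le hi', pow_zero, mul_one] at h

/-! ### integrality -/

theorem embF0_j_zero (k : ℕ) : embF0 D.A _ (D.j k 0) = jF (lv D.M D.q k) := by
  apply Subtype.ext
  rw [coe_embF0]
  show cK D.A ((aL D.K D.M D.q k 0 (GAL.AD.jK D.K D.M 1 (one_dvd D.M)) : D.Fk k) : LaurentSeries D.K) = _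
  rw [coe_aL _ _ _ _ _ (Nat.zero_le k), GAL.AD.coe_jK, cK, coeffMap_qExpand,
    ModularCurve.coeffMap_jqNModC, qExpand_congr (pow_zero D.q), qExpand_one_apply, jF, coe_jBar]

theorem isIntegral_th (k i i' : ℕ) :
    IsIntegral (Algebra.adjoin D.K {D.j k 0}) (D.th W hW k i i') :=
  W.isIntegral_rat0 D.A _ _ _ _ _ _ (D.embF0_j_zero k)

theorem isIntegral_natCast (k n : ℕ) :
    IsIntegral (Algebra.adjoin D.K {D.j k 0}) ((n : ℕ) : D.Fk k) := by
  have := isIntegral_const_abs (D.j k 0) ((n : ℕ) : D.K)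
  rwa [map_natCast] at this

theorem isIntegral_t_of_j {k : ℕ} {y : D.Fk k} (hy : IsIntegral (Algebra.adjoin D.K {D.j k 0}) y) :
    IsIntegral (Algebra.adjoin D.K {D.t k}) y :=
  isIntegral_adjoin_trans
    (isIntegral_adjoin_pow_sub (D.j k 0) (Nat.one_lt_pow two_ne_zero D.hq.one_lt)) hy

/-- membership in the chart `B₁ = intCl R t`. -/
theorem mem_B1_of {k : ℕ} {e f : Fin (k + 1) → ℕ}
    (S : GaussSys D.K ((D.q : ℕ) : D.R) (D.t k) (D.O k) e f) {y : D.Fk k}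
    (hv : ∀ s, (D.O k s).valuation y ≤ 1) (hy : IsIntegral (Algebra.adjoin D.K {D.j k 0}) y) :
    y ∈ intCl D.R (D.t k) := by
  refine S.mem_intCl_of_isIntegral D.irr ?_ (D.isIntegral_t_of_j hy)
  intro i
  rw [← ValuationSubring.valuation_le_one_iff]
  exact hv i

end CtxK

end Fermat.Agent.S45
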