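/-
S45 / [THETA_k] (helper31): the component functions `Hth k s` (`div = e_s C_s` on the first chart) built from the theta ratios,
their reductions along all the components.
-/
import Fermat.Agent.S45.Theta.RedK

set_option autoImplicit false
set_option linter.unusedSectionVars false

open ModularCurve
open Fermat.Agent.S24 Fermat.Agent.S36 Fermat.Agent.RED.Gauss

noncomputable section

namespace Fermat.Agent.S45

/-! ### the tent shape of `nK` -/

theorem nK_step_low {k j i : ℕ} (hj : j ≤ k) (h : i + 1 ≤ k - j) : nK k j (i + 1) = nK k j i + 1 := by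
  unfold nK
  split_ifs <;> omega

theorem nK_step_high {k j i : ℕ} (hj : j ≤ k) (h : k - j ≤ i) (hi : i + 1 ≤ k) :
    nK k j i = nK k j (i + 1) + 1 := by
  unfold nK
  split_ifs <;> omega

theorem pow_mul_pow_of_mul_eq_one {R : Type*} [CommMonoid R] {g g' : R} (h : g * g' = 1) {x y d : ℕ}
    (hxy : x + d = y) : g ^ x * g' ^ y = g' ^ d := by
  rw [← hxy, pow_add, ← mul_assoc, ← mul_pow, h, one_pow, one_mul]

namespace CtxK

variable (D : CtxK) {M₀ : ℕ} [NeZero M₀] (W : Wt1 M₀) (hW : M₀ ∣ D.M)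

/-- `Abar = Gbar ^ (-(q-1))` -/
def AbH : LaurentSeries D.k := W.GLinv D.k ^ (D.q - 1)

/-- `Abar⁻¹ = Gbar ^ (q-1)` -/
def BbH : LaurentSeries D.k := W.GL D.k ^ (D.q - 1)

theorem BbH_mul_AbH : D.BbH W * D.AbH W = 1 := by
  rw [AbH, BbH, ← mul_pow, W.GL_mul_GLinv, one_pow]

theorem AbH_ne_zero : D.AbH W ≠ 0 := right_ne_zero_of_mul_eq_one (D.BbH_mul_AbH W)

theorem q_pow_succ_eq (n : ℕ) : D.q ^ n + (D.q - 1) * D.q ^ n = D.q ^ (n + 1) := by
  obtain ⟨r, hr⟩ : ∃ r, D.q = r + 1 := ⟨D.q - 1, (Nat.succ_pred_eq_of_pos D.hq.pos).symm⟩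
  rw [hr, Nat.add_sub_cancel]
  ring

/-- `Gbar^(q^n) / Gbar^(q^(n+1)) = Abar^(q^n)` -/
theorem GL_GLinv_step (n : ℕ) :
    W.GL D.k ^ (D.q ^ n) * W.GLinv D.k ^ (D.q ^ (n + 1)) = D.AbH W ^ (D.q ^ n) := by
  rw [AbH, ← pow_mul]
  exact pow_mul_pow_of_mul_eq_one (W.GL_mul_GLinv D.k) (D.q_pow_succ_eq n)

theorem GL_GLinv_step' (n : ℕ) :
    W.GL D.k ^ (D.q ^ (n + 1)) * W.GLinv D.k ^ (D.q ^ n) = D.BbH W ^ (D.q ^ n) := by
  rw [BbH, ← pow_mul, mul_comm]
  exact pow_mul_pow_of_mul_eq_one ((mul_comm _ _).trans (W.GL_mul_GLinv D.k)) (D.q_pow_succ_eq n)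

/-! ### the four elementary steps -/

/-- Frobenius step: `G(q^i τ)/G(q^(i+1) τ)` reduces to `Abar^(q^n)`. -/
theorem redsTo_step_low {k j i : ℕ} (hj : j ≤ k) (h : i + 1 ≤ k - j) :
    RedsTo D.π (D.e k j (D.th W hW k i (i + 1))) (D.AbH W ^ (D.q ^ nK k j i)) := by
  have := D.redsTo_th W hW hj (i := i) (i' := i + 1) (by omega) (by omega)
  rwa [Nat.sub_eq_zero_of_le (by omega : i ≤ k - j), Nat.sub_eq_zero_of_le h, pow_zero, div_one,
    one_mul, pow_zero, one_mul, nK_step_low hj h, D.GL_GLinv_step W] at this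

theorem redsTo_step_low' {k j i : ℕ} (hj : j ≤ k) (h : i + 1 ≤ k - j) :
    RedsTo D.π (D.e k j (D.th W hW k (i + 1) i)) (D.BbH W ^ (D.q ^ nK k j i)) := by
  have := D.redsTo_th W hW hj (i := i + 1) (i' := i) (by omega) (by omega)
  rwa [Nat.sub_eq_zero_of_le (by omega : i ≤ k - j), Nat.sub_eq_zero_of_le h, pow_zero, div_one,
    one_mul, pow_zero, one_mul, nK_step_low hj h, D.GL_GLinv_step' W] at this

theorem chiS_pow_odd (n : ℕ) : W.chiS D.k D.q ^ (n + 1 + n) = W.chiS D.k D.q := by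
  rw [show n + 1 + n = 2 * n + 1 by ring, pow_succ, pow_mul, pow_two, W.chiS_mul_self, one_pow,
    one_mul]

/-- Verschiebung step: `q G(q^(i+1) τ)/G(q^i τ)` reduces to `χ(q) Abar^(q^n)`. -/
theorem redsTo_step_high {k j i : ℕ} (hj : j ≤ k) (h : k - j ≤ i) (hi : i + 1 ≤ k) :
    RedsTo D.π (D.e k j (((D.q : ℕ) : D.Fk k) * D.th W hW k (i + 1) i))
      (W.chiS D.k D.q * D.AbH W ^ (D.q ^ nK k j (i + 1))) := by
  have := D.redsTo_th W hW hj (i := i + 1) (i' := i) (by omega) (by omega)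
  have h0 := D.natCast_Fk_ne_zero k
  have e1 : ((D.q : ℕ) : D.Fk k) ^ (i - (k - j) + 1) / ((D.q : ℕ) : D.Fk k) ^ (i - (k - j))
      = ((D.q : ℕ) : D.Fk k) := by
    rw [pow_succ, mul_div_assoc, mul_comm, div_mul_cancel₀ _ (pow_ne_zero _ h0)]
  rwa [show i + 1 - (k - j) = (i - (k - j)) + 1 by omega, e1, D.chiS_pow_odd W,
    nK_step_high hj h hi, D.GL_GLinv_step W] at this

theorem redsTo_step_high' {k j i : ℕ} (hj : j ≤ k) (h : k - j ≤ i) (hi : i + 1 ≤ k) :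
    RedsTo D.π (D.e k j (D.th W hW k i (i + 1) / ((D.q : ℕ) : D.Fk k)))
      (W.chiS D.k D.q * D.BbH W ^ (D.q ^ nK k j (i + 1))) := by
  have := D.redsTo_th W hW hj (i := i) (i' := i + 1) (by omega) (by omega)
  have h0 := D.natCast_Fk_ne_zero k
  have e1 : ((D.q : ℕ) : D.Fk k) ^ (i - (k - j)) / ((D.q : ℕ) : D.Fk k) ^ (i - (k - j) + 1)
      * D.th W hW k i (i + 1) = D.th W hW k i (i + 1) / ((D.q : ℕ) : D.Fk k) := by
    have := pow_ne_zero (i - (k - j)) h0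
    field_simp
    ring
  rwa [show i + 1 - (k - j) = (i - (k - j)) + 1 by omega, e1,
    show i - (k - j) + (i - (k - j) + 1) = (i - (k - j)) + 1 + (i - (k - j)) by ring,
    D.chiS_pow_odd W, nK_step_high hj h hi, D.GL_GLinv_step' W] at this

/-! ### the component functions -/

theorem th_congr {k i i' l l' : ℕ} (h : min i k = min l k) (h' : min i' k = min l' k) :
    D.th W hW k i i' = D.th W hW k l l' := by
  apply Subtype.ext
  show W.ratS D.K (D.q ^ min i k) (D.q ^ min i' k) = W.ratS D.K (D.q ^ min l k) (D.q ^ min l' k)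
  simp only [h, h']

theorem th_top (k : ℕ) : D.th W hW k k (k + 1) = 1 := by
  rw [D.th_congr W hW (l := k) (l' := k) rfl (by simp), th_self]

/-- the component function `H_s`, `div H_s = e_s C_s` on the first chart: with `a = k - s`,
`H_s = G(q^a τ)² / (G(q^(a-1) τ) G(q^(a+1) τ))` (`0 < s < k`), `H_0 = q G(q^k τ)/G(q^(k-1) τ)`, `H_k = G(τ)/G(q τ)`. -/
def Hth (k s : ℕ) : D.Fk k :=
  (if s = 0 then ((D.q : ℕ) : D.Fk k) else 1)
    * (D.th W hW k (k - s) (k - s - 1) * D.th W hW k (k - s) (k - s + 1))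

/-- `q / H_s` -/
def Hinv (k s : ℕ) : D.Fk k :=
  (if s = 0 then 1 else ((D.q : ℕ) : D.Fk k))
    * (D.th W hW k (k - s - 1) (k - s) * D.th W hW k (k - s + 1) (k - s))

theorem Hth_mul_Hinv (k s : ℕ) : D.Hth W hW k s * D.Hinv W hW k s = ((D.q : ℕ) : D.Fk k) := by
  have h1 := D.th_mul_swap W hW k (k - s) (k - s - 1)
  have h2 := D.th_mul_swap W hW k (k - s) (k - s + 1)
  unfold Hth Hinv
  split_ifs
  · linear_combination ((D.q : ℕ) : D.Fk k) * D.th W hW k (k - s) (k - s + 1)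
      * D.th W hW k (k - s + 1) (k - s) * h1 + ((D.q : ℕ) : D.Fk k) * h2
  · linear_combination ((D.q : ℕ) : D.Fk k) * D.th W hW k (k - s) (k - s + 1)
      * D.th W hW k (k - s + 1) (k - s) * h1 + ((D.q : ℕ) : D.Fk k) * h2

theorem Hth_ne_zero (k s : ℕ) : D.Hth W hW k s ≠ 0 := by
  intro h
  have := D.Hth_mul_Hinv W hW k s
  rw [h, zero_mul] at this
  exact D.natCast_Fk_ne_zero k this.symm

theorem q_div_Hth (k s : ℕ) : ((D.q : ℕ) : D.Fk k) / D.Hth W hW k s = D.Hinv W hW k s := by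
  rw [div_eq_iff (D.Hth_ne_zero W hW k s), ← D.Hth_mul_Hinv W hW k s, mul_comm]

theorem Hth_zero (k : ℕ) : D.Hth W hW k 0 = ((D.q : ℕ) : D.Fk k) * D.th W hW k k (k - 1) := by
  rw [Hth, if_pos rfl, Nat.sub_zero, th_top, mul_one]

theorem Hth_self (k : ℕ) (hk : 1 ≤ k) : D.Hth W hW k k = D.th W hW k 0 1 := by
  rw [Hth, if_neg (by omega), Nat.sub_self, th_self, one_mul, one_mul]

theorem Hth_mid {k s a : ℕ} (hs : s ≠ 0) (ha : k - s = a + 1) :
    D.Hth W hW k s = D.th W hW k (a + 1) a * D.th W hW k (a + 1) (a + 1 + 1) := by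
  rw [Hth, if_neg hs, ha, Nat.add_sub_cancel, one_mul]

theorem Hinv_zero (k : ℕ) : D.Hinv W hW k 0 = D.th W hW k (k - 1) k := by
  rw [Hinv, if_pos rfl, Nat.sub_zero, one_mul, ← D.th_inv W hW k k (k + 1), th_top, inv_one, mul_one]

theorem Hinv_self (k : ℕ) (hk : 1 ≤ k) :
    D.Hinv W hW k k = ((D.q : ℕ) : D.Fk k) * D.th W hW k 1 0 := by
  rw [Hinv, if_neg (by omega), Nat.sub_self, th_self, one_mul]

theorem Hinv_mid {k s a : ℕ} (hs : s ≠ 0) (ha : k - s = a + 1) :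
    D.Hinv W hW k s = D.th W hW k a (a + 1) * (((D.q : ℕ) : D.Fk k) * D.th W hW k (a + 1 + 1) (a + 1)) := by
  rw [Hinv, if_neg hs, ha, Nat.add_sub_cancel]
  ring

/-- **the table of the `H_s`**: along a component `j ≠ s`, `H_s` reduces to `± Abar ^ N`, `N > 0`. -/
theorem redsTo_Hth {k j s : ℕ} (hj : j ≤ k) (hs : s ≤ k) (hne : s ≠ j) :
    ∃ (c : LaurentSeries D.k) (N : ℕ), c * c = 1 ∧ 0 < N ∧
      RedsTo D.π (D.e k j (D.Hth W hW k s)) (c * D.AbH W ^ N) := by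
  have hqpos : ∀ n, 0 < D.q ^ n := fun n => pow_pos D.hq.pos n
  rcases Nat.eq_zero_or_pos s with rfl | hs0
  · -- `s = 0`
    obtain ⟨k', rfl⟩ : ∃ k', k = k' + 1 := ⟨k - 1, by omega⟩
    refine ⟨W.chiS D.k D.q, D.q ^ nK (k' + 1) j (k' + 1), W.chiS_mul_self D.q D.k, hqpos _, ?_⟩
    rw [Hth_zero, Nat.add_sub_cancel]
    exact D.redsTo_step_high W hW hj (by omega) le_rfl
  rcases Nat.lt_or_ge s k with hsk | hsk
  swap
  · -- `s = k`
    obtain rfl : s = k := le_antisymm hs hsk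
    refine ⟨1, D.q ^ nK s j 0, one_mul 1, hqpos _, ?_⟩
    rw [D.Hth_self W hW s hs0, one_mul]
    exact D.redsTo_step_low W hW hj (by omega)
  obtain ⟨a, ha⟩ : ∃ a, k - s = a + 1 := ⟨k - s - 1, by omega⟩
  have hq1 : 0 < D.q - 1 := Nat.sub_pos_of_lt D.hq.one_lt
  rw [D.Hth_mid W hW hs0.ne' ha]
  rcases Nat.lt_or_ge j s with hjs | hjs
  · -- `a + 1 < k - j`
    refine ⟨1, (D.q - 1) * D.q ^ nK k j a, one_mul 1, Nat.mul_pos hq1 (hqpos _), ?_⟩
    have h1 := D.redsTo_step_low' W hW hj (i := a) (by omega)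
    have h2 := D.redsTo_step_low W hW hj (i := a + 1) (by omega)
    have h3 := h1.mul h2
    rwa [← map_mul, nK_step_low hj (by omega : a + 1 ≤ k - j),
      pow_mul_pow_of_mul_eq_one (D.BbH_mul_AbH W) (D.q_pow_succ_eq _), ← one_mul (D.AbH W ^ _)] at h3
  · -- `k - j < a + 1`
    have hjs' : s < j := lt_of_le_of_ne hjs hne
    refine ⟨1, (D.q - 1) * D.q ^ nK k j (a + 1 + 1), one_mul 1, Nat.mul_pos hq1 (hqpos _), ?_⟩
    have h1 := D.redsTo_step_high W hW hj (i := a) (by omega) (by omega)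
    have h2 := D.redsTo_step_high' W hW hj (i := a + 1) (by omega) (by omega)
    have h3 := h1.mul h2
    have e1 : ((D.q : ℕ) : D.Fk k) * D.th W hW k (a + 1) a
        * (D.th W hW k (a + 1) (a + 1 + 1) / ((D.q : ℕ) : D.Fk k))
        = D.th W hW k (a + 1) a * D.th W hW k (a + 1) (a + 1 + 1) := by
      have := D.natCast_Fk_ne_zero k
      field_simp
    have e2 : W.chiS D.k D.q * D.AbH W ^ (D.q ^ nK k j (a + 1))
        * (W.chiS D.k D.q * D.BbH W ^ (D.q ^ nK k j (a + 1 + 1)))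
        = 1 * D.AbH W ^ ((D.q - 1) * D.q ^ nK k j (a + 1 + 1)) := by
      rw [nK_step_high hj (by omega : k - j ≤ a + 1) (by omega), one_mul,
        ← pow_mul_pow_of_mul_eq_one (D.BbH_mul_AbH W) (D.q_pow_succ_eq (nK k j (a + 1 + 1)))]
      linear_combination (D.AbH W ^ (D.q ^ (nK k j (a + 1 + 1) + 1))
        * D.BbH W ^ (D.q ^ nK k j (a + 1 + 1))) * W.chiS_mul_self D.q D.k
    rwa [← map_mul, e1, e2] at h3

/-- along its own component `q / H_s` is a unit: it reduces to `± Abar ^ N`. -/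
theorem redsTo_Hinv {k s : ℕ} (hs : s ≤ k) (hk : 1 ≤ k) :
    ∃ (c : LaurentSeries D.k) (N : ℕ), c * c = 1 ∧ 0 < N ∧
      RedsTo D.π (D.e k s (D.Hinv W hW k s)) (c * D.AbH W ^ N) := by
  have hqpos : ∀ n, 0 < D.q ^ n := fun n => pow_pos D.hq.pos n
  rcases Nat.eq_zero_or_pos s with rfl | hs0
  · obtain ⟨k', rfl⟩ : ∃ k', k = k' + 1 := ⟨k - 1, by omega⟩
    refine ⟨1, D.q ^ nK (k' + 1) 0 k', one_mul 1, hqpos _, ?_⟩
    rw [Hinv_zero, Nat.add_sub_cancel, one_mul]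
    exact D.redsTo_step_low W hW hs (by omega)
  rcases Nat.lt_or_ge s k with hsk | hsk
  swap
  · obtain rfl : s = k := le_antisymm hs hsk
    refine ⟨W.chiS D.k D.q, D.q ^ nK s s (0 + 1), W.chiS_mul_self D.q D.k, hqpos _, ?_⟩
    rw [D.Hinv_self W hW s hs0]
    exact D.redsTo_step_high W hW hs (by omega) (by omega)
  obtain ⟨a, ha⟩ : ∃ a, k - s = a + 1 := ⟨k - s - 1, by omega⟩
  rw [D.Hinv_mid W hW hs0.ne' ha]
  refine ⟨W.chiS D.k D.q, D.q ^ nK k s a + D.q ^ nK k s (a + 1 + 1), W.chiS_mul_self D.q D.k,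
    Nat.add_pos_left (hqpos _) _, ?_⟩
  have h1 := D.redsTo_step_low W hW hs (i := a) (by omega)
  have h2 := D.redsTo_step_high W hW hs (i := a + 1) (by omega) (by omega)
  have h3 := h1.mul h2
  rw [← map_mul] at h3
  convert h3 using 1
  rw [pow_add]
  ring

/-- explicit form of `redsTo_Hinv` for the middle components (for `gen₁`). -/
theorem redsTo_Hinv_mid {k s : ℕ} (hs0 : 0 < s) (hsk : s < k) :
    RedsTo D.π (D.e k s (D.Hinv W hW k s))
      (W.chiS D.k D.q * D.AbH W ^ (2 * D.q ^ (max s (k - s) - 1))) := by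
  obtain ⟨a, ha⟩ : ∃ a, k - s = a + 1 := ⟨k - s - 1, by omega⟩
  rw [D.Hinv_mid W hW hs0.ne' ha]
  have h1 := D.redsTo_step_low W hW hsk.le (i := a) (by omega)
  have h2 := D.redsTo_step_high W hW hsk.le (i := a + 1) (by omega) (by omega)
  have h3 := h1.mul h2
  rw [← map_mul] at h3
  have n1 : nK k s a = max s (k - s) - 1 := by
    unfold nK
    split_ifs <;> omega
  have n2 : nK k s (a + 1 + 1) = max s (k - s) - 1 := by
    unfold nK
    split_ifs <;> omega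
  rw [n1, n2] at h3
  convert h3 using 1
  rw [two_mul, pow_add]
  ring

end CtxK

end Fermat.Agent.S45
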