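/-
S45 / [THETA_k] (helper31): valuations and integrality of the component functions `Hth k s`, `Hinv k s = q / Hth k s`;
the `CompFn` structure, and (second source) the field `meet`.
-/
import Fermat.Agent.S45.Theta.HK
import Fermat.Agent.S45.Abs.GeomAbs

set_option autoImplicit false
set_option linter.unusedSectionVars false

open ModularCurve
open Fermat.Agent.S24 Fermat.Agent.S36 Fermat.Agent.RED.Gauss

noncomputable section

namespace Fermat.Agent.S45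

namespace CtxK

variable (D : CtxK) {M₀ : ℕ} [NeZero M₀] (W : Wt1 M₀) (hW : M₀ ∣ D.M)

theorem sign_mul_AbH_ne_zero {c : LaurentSeries D.k} (hc : c * c = 1) (N : ℕ) :
    c * D.AbH W ^ N ≠ 0 :=
  mul_ne_zero (left_ne_zero_of_mul_eq_one hc) (pow_ne_zero _ (D.AbH_ne_zero W))

theorem val_Hth_other {k j s : ℕ} (hj : j ≤ k) (hs : s ≤ k) (hne : s ≠ j) :
    (D.OO k j hj).valuation (D.Hth W hW k s) = 1 := by
  obtain ⟨c, N, hc, -, h⟩ := D.redsTo_Hth W hW hj hs hne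
  exact D.val_eq_one hj h (D.sign_mul_AbH_ne_zero W hc N)

theorem val_Hinv_self {k s : ℕ} (hs : s ≤ k) (hk : 1 ≤ k) :
    (D.OO k s hs).valuation (D.Hinv W hW k s) = 1 := by
  obtain ⟨c, N, hc, -, h⟩ := D.redsTo_Hinv W hW hs hk
  exact D.val_eq_one hs h (D.sign_mul_AbH_ne_zero W hc N)

theorem val_Hth_self {k s : ℕ} (hs : s ≤ k) (hk : 1 ≤ k) :
    (D.OO k s hs).valuation (D.Hth W hW k s) = (D.OO k s hs).valuation ((D.q : ℕ) : D.Fk k) := by
  rw [← D.Hth_mul_Hinv W hW k s, map_mul, D.val_Hinv_self W hW hs hk, mul_one]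

theorem val_Hinv_other {k j s : ℕ} (hj : j ≤ k) (hs : s ≤ k) (hne : s ≠ j) :
    (D.OO k j hj).valuation (D.Hinv W hW k s) = (D.OO k j hj).valuation ((D.q : ℕ) : D.Fk k) := by
  rw [← D.Hth_mul_Hinv W hW k s, map_mul, D.val_Hth_other W hW hj hs hne, one_mul]

theorem isIntegral_Hth (k s : ℕ) : IsIntegral (Algebra.adjoin D.K {D.j k 0}) (D.Hth W hW k s) := by
  unfold Hth
  refine isIntegral_mul_abs _ ?_ (isIntegral_mul_abs _ (D.isIntegral_th W hW _ _ _)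
    (D.isIntegral_th W hW _ _ _))
  split_ifs
  · exact D.isIntegral_natCast k _
  · exact isIntegral_one

theorem isIntegral_Hinv (k s : ℕ) : IsIntegral (Algebra.adjoin D.K {D.j k 0}) (D.Hinv W hW k s) := by
  unfold Hinv
  refine isIntegral_mul_abs _ ?_ (isIntegral_mul_abs _ (D.isIntegral_th W hW _ _ _)
    (D.isIntegral_th W hW _ _ _))
  split_ifs
  · exact isIntegral_one
  · exact D.isIntegral_natCast k _

theorem algebraMap_q (k : ℕ) : algebraMap D.R (D.Fk k) ((D.q : ℕ) : D.R) = ((D.q : ℕ) : D.Fk k) :=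
  map_natCast _ _

section Sys

variable {k : ℕ} {e f : Fin (k + 1) → ℕ} (S : GaussSys D.K ((D.q : ℕ) : D.R) (D.t k) (D.O k) e f)

include S

theorem Hth_mem (hk : 1 ≤ k) {s : ℕ} (hs : s ≤ k) : D.Hth W hW k s ∈ intCl D.R (D.t k) := by
  refine D.mem_B1_of S (fun j => ?_) (D.isIntegral_Hth W hW k s)
  have hj : (j : ℕ) ≤ k := Nat.lt_succ_iff.1 j.2
  show (D.OO k j hj).valuation _ ≤ 1
  by_cases h : s = j
  · subst h
    rw [D.val_Hth_self W hW hj hk]
    exact (D.valq_lt hj).le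
  · exact (D.val_Hth_other W hW hj hs h).le

theorem Hinv_mem (hk : 1 ≤ k) {s : ℕ} (hs : s ≤ k) : D.Hinv W hW k s ∈ intCl D.R (D.t k) := by
  refine D.mem_B1_of S (fun j => ?_) (D.isIntegral_Hinv W hW k s)
  have hj : (j : ℕ) ≤ k := Nat.lt_succ_iff.1 j.2
  show (D.OO k j hj).valuation _ ≤ 1
  by_cases h : s = j
  · subst h
    exact (D.val_Hinv_self W hW hj hk).le
  · rw [D.val_Hinv_other W hW hj hs h]
    exact (D.valq_lt hj).le

/-- the `H_s` are component functions in the sense of `GeomAbs`. -/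
theorem compFn_Hth (hk : 1 ≤ k) : CompFn S (fun s : Fin (k + 1) => D.Hth W hW k s) where
  mem := fun s => D.Hth_mem W hW S hk (Nat.lt_succ_iff.1 s.2)
  val := fun s => by
    rw [D.algebraMap_q]
    exact D.val_Hth_self W hW (Nat.lt_succ_iff.1 s.2) hk
  indep := fun s j hsj =>
    D.val_Hth_other W hW (Nat.lt_succ_iff.1 j.2) (Nat.lt_succ_iff.1 s.2)
      (fun h => hsj (Fin.ext h))
  inv := fun s => ⟨1, by
    rw [D.algebraMap_q, pow_one, D.q_div_Hth W hW]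
    exact D.Hinv_mem W hW S hk (Nat.lt_succ_iff.1 s.2)⟩

/-- the relation `(T3)` -/
theorem t3_Hth (hk : 1 ≤ k) (i j l : Fin (k + 1)) (hj : j ≠ i) (hl : l ≠ i) :
    ∃ (x : ℕ) (w : D.Fk k), w ∈ intCl D.R (D.t k) ∧
      (D.O k i).valuation (D.Hth W hW k l ^ x - D.Hth W hW k j * w) < 1 := by
  have hi' : (i : ℕ) ≤ k := Nat.lt_succ_iff.1 i.2
  have hj' : (j : ℕ) ≤ k := Nat.lt_succ_iff.1 j.2
  have hl' : (l : ℕ) ≤ k := Nat.lt_succ_iff.1 l.2
  obtain ⟨c, N, hc, hN, h⟩ := D.redsTo_Hth W hW hi' hj' (fun h => hj (Fin.ext h))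
  obtain ⟨c', N', hc', hN', h'⟩ := D.redsTo_Hth W hW hi' hl' (fun h => hl (Fin.ext h))
  refine ⟨2 * N, D.Hth W hW k j ^ (2 * N' - 1),
    (intCl D.R (D.t k)).pow_mem (D.Hth_mem W hW S hk hj') _, ?_⟩
  rw [← pow_succ', show 2 * N' - 1 + 1 = 2 * N' by omega]
  apply D.val_lt_one hi'
  have h3 := (h'.pow (2 * N)).sub (h.pow (2 * N'))
  rw [← map_pow, ← map_pow, ← map_sub] at h3
  convert h3 using 1
  rw [mul_pow, mul_pow, pow_mul c', pow_mul c, pow_two, pow_two, hc, hc', one_pow, one_pow,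
    one_mul, one_mul, ← pow_mul, ← pow_mul, show N' * (2 * N) = N * (2 * N') by ring, sub_self]

include W hW in
/-- **the field `meet`** (second source, via `CompFn.tripleK`). -/
theorem meet_Hth (hk : 1 ≤ k) (𝔪 : Ideal (intCl D.R (D.t k))) (h𝔪 : 𝔪.IsMaximal)
    (i j : Fin (k + 1)) (hij : i ≠ j) (hi : S.p i ≤ 𝔪) (hj : S.p j ≤ 𝔪) (l : Fin (k + 1)) :
    S.p l ≤ 𝔪 :=
  (D.compFn_Hth W hW S hk).tripleK D.irr (D.t3_Hth W hW S hk) 𝔪 h𝔪 i j hij hi hj l

end Sys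

end CtxK

end Fermat.Agent.S45
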