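import Fermat.Agent.S45.Mod.Trans
import Fermat.Agent.S45.Mod.Eps
import Fermat.Agent.S45.Theta.CuspK
import Fermat.Agent.S36.Theta.Val

/-!
# S45 / [MODK-MEET] part 1 : the step functions `u_i = G(q^i τ)/G(q^(i+1) τ)` at the level `M q^k`
and their reductions along ALL the components (induction on the level with `Trans.lean`; the base cases come from
helper31's expansions `IsSigK.ratF_*` at `(r,s) = (1,0)` and `(1,1)`).
-/

set_option autoImplicit false
set_option linter.unusedSectionVars false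
noncomputable section

open ModularCurve

namespace Fermat.Agent.S45

open Fermat.Agent.S24 Fermat.Agent.S36 Fermat.Agent.RED.Gauss Fermat.Agent.GAL.AD
  Fermat.Agent.RED.ES

section Gen

variable {M₀ : ℕ} (W : Wt1 M₀)

theorem ratS_congrK (R : Type*) [CommRing R] {d d' e e' : ℕ} [NeZero d] [NeZero d'] [NeZero e]
    [NeZero e'] (hd : d = d') (he : e = e') : W.ratS R d e = W.ratS R d' e' := by
  subst hd he; rfl

theorem ratF_congrK [NeZero M₀] (L : ℕ) [NeZero L] {d d' e e' : ℕ} [NeZero d] [NeZero d'] [NeZero e]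
    [NeZero e'] (hd : d = d') (he : e = e') (h1 : M₀ * d ∣ L) (h2 : M₀ * e ∣ L)
    (h1' : M₀ * d' ∣ L) (h2' : M₀ * e' ∣ L) : W.ratF L d e h1 h2 = W.ratF L d' e' h1' h2' := by
  subst hd he; rfl

end Gen

section Sig

variable (M q : ℕ) [NeZero M] [NeZero q]

/-- an expansion with `IsSigK` satisfies the table (this is the proof of `exists_eps_first`). -/
theorem IsSigK.isEps {z : ℕ → Kbˣ} (hz : ZSys q z) (r s : ℕ) (hsr : s ≤ r)
    {σ : FN (lv M q (r + s)) →+* LaurentSeries Kb}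
    (H : IsSigK M q r s (lv M q (r + s)) (z r) σ) : IsEps M q z (r + s) s σ := by
  have h2 : 2 * s ≤ r + s := by omega
  have hL : lv M q (r + s) = M * q ^ (r + s) := lv_eq M q (r + s)
  refine ⟨H.const, fun i hi u => ?_⟩
  rcases le_or_gt i r with hir | hir
  · have := H.apply_low hL hir (aL Kb M q (r + s) i : FN M →+* FN (lv M q (r + s)))
      (fun u => coe_aL Kb M q (r + s) i hi u) u
    refine this.trans ?_
    have e1 : zT z (r + s) s i = 1 := by
      rw [zT, if_pos h2, show i - (r + s - s) = 0 by omega, hz.zero]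
    have e2 : nK (r + s) s i = i := by
      rw [nK, if_pos h2, if_pos (by omega)]
    rw [subT_congr e1 (congrArg (q ^ ·) e2), subT_apply, rot_one_left]
  · obtain ⟨n, rfl⟩ : ∃ n, i = r + n := ⟨i - r, by omega⟩
    have hn : n ≤ s := by omega
    have := H.apply_high hL hn (aL Kb M q (r + s) (r + n) : FN M →+* FN (lv M q (r + s)))
      (fun u => coe_aL Kb M q (r + s) (r + n) hi u) u
    refine this.trans ?_
    have e1 : zT z (r + s) s (r + n) = z r ^ (q ^ (r - n)) := by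
      rw [zT, if_pos h2, show r + n - (r + s - s) = n by omega]
      have := hz.pow_pow_eps n (r - n)
      rw [show n + (r - n) = r by omega] at this
      exact this.symm
    have e2 : nK (r + s) s (r + n) = r - n := by
      rw [nK, if_pos h2, if_neg (by omega)]
      omega
    rw [subT_congr e1 (congrArg (q ^ ·) e2), subT_apply, rot_qExpand]

/-- in the first regime the expansion of the table is one of helper97's. -/
theorem IsEps.isSigK_st (hq : q.Prime) (hqM : ¬ q ∣ M) {z : ℕ → Kbˣ} (hz : ZSys q z) (r s : ℕ)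
    (hsr : s ≤ r) {E : FN (lv M q (r + s)) →+* LaurentSeries Kb} (H : IsEps M q z (r + s) s E) :
    IsSigK M q r s (lv M q (r + s)) (z r) E := by
  obtain ⟨σ, Hσ⟩ := exists_sigmaK M q hq hqM r s hsr (lv M q (r + s)) (lv_eq M q (r + s)) (z r)
    (hz.prim_eps hq r)
  rw [H.ext hq (IsSigK.isEps M q hz r s hsr Hσ)]
  exact Hσ

end Sig

namespace CtxK

variable (D : CtxK) {M₀ : ℕ} [NeZero M₀] (W : Wt1 M₀) (hM : M₀ ∣ D.M)

theorem lvl_dvdK {M₀ M : ℕ} (q : ℕ) (hM : M₀ ∣ M) {k i : ℕ} (hi : i ≤ k) :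
    M₀ * q ^ i ∣ lv M q k := by
  rw [lv_eq]; exact mul_dvd_mul hM (pow_dvd_pow q hi)

/-- `G(q^i τ)/G(q^i' τ)` at the level `M q^k` (junk value `1` if `i` or `i'` is `> k`). -/
def ratK (k i i' : ℕ) : D.Fk k :=
  if h : i ≤ k ∧ i' ≤ k then
    W.rat0 D.A (lv D.M D.q k) (D.q ^ i) (D.q ^ i') (lvl_dvdK D.q hM h.1) (lvl_dvdK D.q hM h.2)
  else 1

theorem ratK_eq {k i i' : ℕ} (hi : i ≤ k) (hi' : i' ≤ k) : D.ratK W hM k i i' =
    W.rat0 D.A (lv D.M D.q k) (D.q ^ i) (D.q ^ i') (lvl_dvdK D.q hM hi) (lvl_dvdK D.q hM hi') := by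
  rw [ratK, dif_pos ⟨hi, hi'⟩]

theorem coe_ratK {k i i' : ℕ} (hi : i ≤ k) (hi' : i' ≤ k) :
    ((D.ratK W hM k i i' : D.Fk k) : LaurentSeries D.K) = W.ratS D.K (D.q ^ i) (D.q ^ i') := by
  rw [D.ratK_eq W hM hi hi']; rfl

theorem ratK_mul {k i i' : ℕ} (hi : i ≤ k) (hi' : i' ≤ k) :
    D.ratK W hM k i i' * D.ratK W hM k i' i = 1 := by
  rw [D.ratK_eq W hM hi hi', D.ratK_eq W hM hi' hi]
  exact W.rat0_mul_rat0 D.A _ _ _ _ _

theorem al_ratK {k i i' : ℕ} (hi : i ≤ k) (hi' : i' ≤ k) :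
    D.al k (D.ratK W hM k i i') = D.ratK W hM (k + 1) i i' := by
  apply Subtype.ext
  rw [coe_alK, D.coe_ratK W hM hi hi', D.coe_ratK W hM (by omega) (by omega)]

theorem be_ratK {k i i' : ℕ} (hi : i ≤ k) (hi' : i' ≤ k) :
    D.be k (D.ratK W hM k i i') = D.ratK W hM (k + 1) (i + 1) (i' + 1) := by
  apply Subtype.ext
  rw [coe_beK, D.coe_ratK W hM hi hi', D.coe_ratK W hM (by omega) (by omega), W.qExpand_ratS]
  exact ratS_congrK W D.K (by rw [pow_succ, mul_comm]) (by rw [pow_succ, mul_comm])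

theorem embF0_ratK {k i i' : ℕ} (hi : i ≤ k) (hi' : i' ≤ k) :
    embF0 D.A (lv D.M D.q k) (D.ratK W hM k i i') =
      W.ratF (lv D.M D.q k) (D.q ^ i) (D.q ^ i') (lvl_dvdK D.q hM hi) (lvl_dvdK D.q hM hi') := by
  rw [D.ratK_eq W hM hi hi']
  exact W.embF0_rat0 D.A _ _ _ _ _

/-- the step function `u_i = G(q^i τ)/G(q^(i+1) τ)`. -/
def uK (k i : ℕ) : D.Fk k := D.ratK W hM k i (i + 1)

/-- `u'_i = q / u_i = q G(q^(i+1) τ)/G(q^i τ)`. -/
def uK' (k i : ℕ) : D.Fk k := (D.q : D.Fk k) * D.ratK W hM k (i + 1) i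

theorem uK_mul {k i : ℕ} (hi : i < k) : D.uK W hM k i * D.uK' W hM k i = (D.q : D.Fk k) := by
  rw [uK, uK', mul_left_comm, D.ratK_mul W hM (by omega) hi, mul_one]

theorem al_uK {k i : ℕ} (hi : i < k) : D.al k (D.uK W hM k i) = D.uK W hM (k + 1) i :=
  D.al_ratK W hM (by omega) hi

theorem be_uK {k i : ℕ} (hi : i < k) : D.be k (D.uK W hM k i) = D.uK W hM (k + 1) (i + 1) :=
  D.be_ratK W hM (by omega) hi

theorem al_uK' {k i : ℕ} (hi : i < k) : D.al k (D.uK' W hM k i) = D.uK' W hM (k + 1) i := by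
  rw [uK', map_mul, map_natCast, D.al_ratK W hM hi (by omega), uK']

theorem be_uK' {k i : ℕ} (hi : i < k) : D.be k (D.uK' W hM k i) = D.uK' W hM (k + 1) (i + 1) := by
  rw [uK', map_mul, map_natCast, D.be_ratK W hM hi (by omega), uK']

/-! ### the reductions -/

/-- `Abar = Gbar(T)/Gbar(T^q)`. -/
def Ab : LaurentSeries D.k := W.ratS D.k 1 D.q

/-- the sign `χ(q)`. -/
def chb : LaurentSeries D.k := W.chiS D.k D.q

theorem Ab_ne_zero : D.Ab W ≠ 0 := W.ratS_ne_zero D.k 1 D.q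

theorem chb_ne_zero : D.chb W ≠ 0 := W.chiS_ne_zero D.q D.k

theorem qExpand_pow_of_fixed {y : LaurentSeries D.k}
    (hy : coeffMap (frobenius D.k D.q) y = y) (ε : ℕ) :
    qExpand D.k (D.q ^ ε) y = y ^ (D.q ^ ε) := by
  have := ExpChar.prime (R := D.k) D.hq
  induction ε with
  | zero => rw [qExpand_congr (pow_zero D.q), qExpand_one_apply, pow_zero, pow_one]
  | succ n ih =>
    rw [qExpand_congr (show D.q ^ (n + 1) = D.q * D.q ^ n by rw [pow_succ, mul_comm]),
      ← qExpand_qExpand, ih, map_pow, pow_succ, pow_mul]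
    have h1 : qExpand D.k D.q y = y ^ D.q := by rw [pow_char_eq D.q y, hy]
    rw [h1, ← pow_mul, ← pow_mul, mul_comm]

theorem qExpand_Ab_pow (x ε : ℕ) :
    qExpand D.k (D.q ^ ε) (D.Ab W ^ (D.q ^ x)) = D.Ab W ^ (D.q ^ (x + ε)) := by
  rw [D.qExpand_pow_of_fixed (by rw [map_pow, Ab, W.coeffMap_ratS]), ← pow_mul, ← pow_add]

theorem qExpand_chb (ε : ℕ) : qExpand D.k (D.q ^ ε) (D.chb W) = D.chb W := by
  rw [chb, Wt1.chiS, map_intCast]

/-- base case: level `M q`, component `∞`. -/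
theorem e_uK_one_zero : D.e 1 0 (D.uK W hM 1 0) = iota D.A (W.ratS D.A 1 D.q) := by
  have H := IsEps.isSigK_st D.M D.q D.hq D.hqM D.hz 1 0 (Nat.zero_le 1) (D.isEps 1 0 (Nat.zero_le 1))
  rw [e_apply, uK, D.embF0_ratK W hM (Nat.zero_le 1) le_rfl]
  have h1 := IsSigK.ratF_low_low W H D.hq D.hqM (Nat.zero_le 1) (lv_eq D.M D.q 1)
    (D.hz.prim_eps D.hq 1) (D.q ^ 0) (D.q ^ (0 + 1))
    (mul_dvd_mul hM (pow_dvd_pow D.q (Nat.zero_le 1))) (mul_dvd_mul hM (pow_dvd_pow D.q le_rfl))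
    (lvl_dvdK D.q hM (Nat.zero_le 1)) (lvl_dvdK D.q hM le_rfl)
  rw [h1, W.iota_ratS]
  exact ratS_congrK W Kb (pow_zero _) (pow_one _)

/-- level `M q²`, middle component: the `V`-step. -/
theorem e_uK'_two_one : D.e 2 1 (D.uK' W hM 2 1)
    = HahnSeries.C ((W.χ (D.q : ℤ) : ℤ) : Kb) * rot (D.z 1) (W.ratS Kb 1 D.q) := by
  have H := IsEps.isSigK_st D.M D.q D.hq D.hqM D.hz 1 1 le_rfl (D.isEps 2 1 (by omega))
  rw [uK', map_mul, map_natCast, e_apply, D.embF0_ratK W hM le_rfl (by omega)]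
  have h1 := IsSigK.ratF_high_high W H D.hq D.hqM le_rfl (lv_eq D.M D.q 2)
    (D.hz.prim_eps D.hq 1) 1 1 1 0 (by rwa [mul_one]) (by rwa [mul_one]) le_rfl (Nat.zero_le 1)
    (by rw [one_mul]; exact lvl_dvdK D.q hM le_rfl)
    (by rw [one_mul]; exact lvl_dvdK D.q hM (by omega))
  rw [ratF_congrK W (lv D.M D.q 2) (show D.q ^ (1 + 1) = 1 * D.q ^ (1 + 1) by rw [one_mul])
    (show D.q ^ 1 = 1 * D.q ^ (1 + 0) by rw [one_mul]) _ _
    (by rw [one_mul]; exact lvl_dvdK D.q hM le_rfl)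
    (by rw [one_mul]; exact lvl_dvdK D.q hM (by omega)), h1]
  have hq0 : (D.q : Kb) ≠ 0 := Nat.cast_ne_zero.2 D.hq.ne_zero
  have h2 : ((D.q : ℕ) : LaurentSeries Kb) = HahnSeries.C ((D.q : ℕ) : Kb) := (map_natCast _ _).symm
  have h3 : (D.q : Kb) * (kapK W D.q 1 / kapK W D.q 0) = ((W.χ (D.q : ℤ) : ℤ) : Kb) := by
    rw [kapK, kapK]
    field_simp
  rw [h2, ← mul_assoc, ← map_mul, h3]
  congr 2
  exact ratS_congrK W Kb (by simp) (by simp)

/-- base case: level `M q`, component `0`. -/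
theorem e_uK'_one_one : D.e 1 1 (D.uK' W hM 1 0) = iota D.A (W.chiS D.A D.q * W.ratS D.A 1 D.q) := by
  have h1 := D.e_be 1 1 (by omega) (D.uK' W hM 1 0)
  rw [D.be_uK' W hM (by omega), D.e_uK'_two_one W hM] at h1
  have hw : wB D.z 1 1 = D.z 1 := by rw [wB, if_pos (by norm_num)]
  have h2 : HahnSeries.C ((W.χ (D.q : ℤ) : ℤ) : Kb) * rot (D.z 1) (W.ratS Kb 1 D.q)
      = subT (wB D.z 1 1) (D.q ^ εB 1 1)
        (HahnSeries.C ((W.χ (D.q : ℤ) : ℤ) : Kb) * W.ratS Kb 1 D.q) := by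
    rw [map_mul, subT_C, subT_apply, hw]
    congr 1
    rw [qExpand_congr (show D.q ^ εB 1 1 = 1 by rw [εB, if_neg (by norm_num), pow_zero]),
      qExpand_one_apply]
  rw [h2] at h1
  have h3 := (subT (wB D.z 1 1) (D.q ^ εB 1 1)).injective h1
  rw [show min 1 1 = 1 from rfl] at h3
  rw [← h3, map_mul, W.iota_chiS, W.iota_ratS, Wt1.chiS, map_intCast]

/-- **the reductions of the step functions along all the components.** -/
theorem redsTo_step (k : ℕ) (hk : 1 ≤ k) : ∀ s, s ≤ k → ∀ i, i < k →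
    (i < k - s → RedsTo D.π (D.e k s (D.uK W hM k i)) (D.Ab W ^ (D.q ^ nK k s i))) ∧
    (k - s ≤ i → RedsTo D.π (D.e k s (D.uK' W hM k i))
      (D.chb W * D.Ab W ^ (D.q ^ nK k s (i + 1)))) := by
  induction k, hk using Nat.le_induction with
  | base =>
    intro s hs i hi
    obtain rfl : i = 0 := by omega
    rcases Nat.eq_zero_or_pos s with rfl | hs0
    · refine ⟨fun _ => ?_, fun h => absurd h (by omega)⟩
      rw [D.e_uK_one_zero W hM]
      have := redsTo_iota (π := D.π) (W.ratS D.A 1 D.q)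
      rw [W.pi_ratS] at this
      have e : nK 1 0 0 = 0 := by simp [nK]
      rw [e, pow_zero, pow_one]
      exact this
    · obtain rfl : s = 1 := by omega
      refine ⟨fun h => absurd h (by omega), fun _ => ?_⟩
      rw [D.e_uK'_one_one W hM]
      have := redsTo_iota (π := D.π) (W.chiS D.A D.q * W.ratS D.A 1 D.q)
      rw [map_mul (pi D.π), W.pi_chiS, W.pi_ratS] at this
      have e : nK 1 1 (0 + 1) = 0 := by simp [nK]
      rw [e, pow_zero, pow_one]
      exact this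
  | succ k hk ih =>
    intro s hs i hi
    rcases Nat.lt_or_ge i k with hik | hik
    · -- the step comes from level `k` along `α`
      obtain ⟨ihF, ihV⟩ := ih (s - 1) (by omega) i hik
      constructor
      · intro h
        have h1 := D.redsTo_al k s hs (ihF (by omega))
        rw [D.al_uK W hM hik, D.qExpand_Ab_pow W, nK_al k s i hs (by omega)] at h1
        exact h1
      · intro h
        have h1 := D.redsTo_al k s hs (ihV (by omega))
        rw [D.al_uK' W hM hik, map_mul, D.qExpand_chb W, D.qExpand_Ab_pow W,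
          nK_al k s (i + 1) hs (by omega)] at h1
        exact h1
    · -- the last step comes from level `k` along `β`
      obtain rfl : i = k := by omega
      obtain ⟨j, rfl⟩ : ∃ j, i = j + 1 := ⟨i - 1, by omega⟩
      obtain ⟨ihF, ihV⟩ := ih (min s (j + 1)) (min_le_right _ _) j (by omega)
      constructor
      · intro h
        have h1 := D.redsTo_be (j + 1) s hs (ihF (by
          have : s = 0 := by omega
          subst this
          simp))
        rw [D.be_uK W hM (by omega), D.qExpand_Ab_pow W, nK_be (j + 1) s j hs (by omega)] at h1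
        exact h1
      · intro h
        have h1 := D.redsTo_be (j + 1) s hs (ihV (by
          rcases le_total s (j + 1) with h' | h'
          · rw [min_eq_left h']; omega
          · rw [min_eq_right h']; omega))
        rw [D.be_uK' W hM (by omega), map_mul, D.qExpand_chb W, D.qExpand_Ab_pow W,
          nK_be (j + 1) s (j + 1) hs le_rfl] at h1
        exact h1

end CtxK

end Fermat.Agent.S45
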