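/-
S45 / [THETA_k] (helper31): the last leaves of the modular part from the theta ratios:
`EndsOnly` (end uniformisers, `a_mem`, `a_inv`, `meet`) and the congruence for `q` odd; hence `HasDatumCtx`.
-/
import Fermat.Agent.S45.Theta.HMem
import Fermat.Agent.S45.Mod.Inst4

set_option autoImplicit false
set_option linter.unusedSectionVars false

open ModularCurve
open Fermat.Agent.S24 Fermat.Agent.S36 Fermat.Agent.RED.Gauss

noncomputable section

namespace Fermat.Agent.S45

namespace CtxK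

variable (D : CtxK) {M₀ : ℕ} [NeZero M₀] (W : Wt1 M₀) (hW : M₀ ∣ D.M)

/-- the ends and `meet`. -/
theorem endsOnly_th (K : ℕ) (hK : 1 ≤ K) :
    D.EndsOnly K hK (D.Hth W hW K 0) (D.Hth W hW K K) where
  a_lt := by
    rw [D.val_Hth_self W hW (Nat.zero_le K) hK]
    exact D.valq_lt _
  a_ram := (D.val_Hth_self W hW (Nat.zero_le K) hK).ge
  a_indep := fun s hs h => D.val_Hth_other W hW hs (Nat.zero_le K) (Ne.symm h)
  b_lt := by
    rw [D.val_Hth_self W hW le_rfl hK]
    exact D.valq_lt _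
  b_ram := (D.val_Hth_self W hW le_rfl hK).ge
  b_indep := fun s hs h => D.val_Hth_other W hW hs le_rfl (Ne.symm h)
  a_mem := D.Hth_mem W hW (D.sysT hK) hK (Nat.zero_le K)
  a_inv := ⟨1, by
    rw [pow_one, D.q_div_Hth W hW]
    exact D.Hinv_mem W hW (D.sysT hK) hK (Nat.zero_le K)⟩
  meet := fun 𝔪 h𝔪 i j hij hi hj l => D.meet_Hth W hW (D.sysT hK) hK 𝔪 h𝔪 i j hij hi hj l

theorem exists_endsOnly_th (K : ℕ) (hK : 1 ≤ K) (haux : RED.aux D.q ∣ D.M) :
    ∃ a b : D.Fk K, D.EndsOnly K hK a b := by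
  by_cases h2 : D.q = 2
  · rw [RED.aux, if_pos h2] at haux
    exact ⟨_, _, D.endsOnly_th wt1Nine haux K hK⟩
  · rw [RED.aux, if_neg h2] at haux
    exact ⟨_, _, D.endsOnly_th wt1Four haux K hK⟩

end CtxK

end Fermat.Agent.S45
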