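/-
S45 / [THETA_k] (helper31): the congruence `ϖ_s ^ e_s / q * y ≡ c` along the middle components for `q` odd, and `HasDatumCtx`.
-/
import Fermat.Agent.S45.Theta.EndsTh

set_option autoImplicit false
set_option linter.unusedSectionVars false

open ModularCurve
open Fermat.Agent.S24 Fermat.Agent.S28 Fermat.Agent.S36 Fermat.Agent.RED.Gauss Fermat.Agent.GAL.AD

noncomputable section

namespace Fermat.Agent.S45

namespace CtxK

variable (D : CtxK)

theorem dS_hUnit4 (h4 : 4 ∣ D.M) (k s : ℕ) :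
    D.dS (hUnit4 D.M D.q h4) k s = (-(wt1Four.GL D.k ^ 2)) ^ (D.q ^ xGen k s) := by
  have := ExpChar.prime (R := D.k) D.hq
  show castLS D.k (qExpand ℤ (D.q ^ xGen k s) (DL tSer * hSer)) = _
  rw [DL_tSer_mulK, castLS_qExpand_pow_eqK]
  congr 1
  rw [← castLS_gS]
  simp only [castLS, map_neg, map_pow]

theorem xGen_add_min {k s : ℕ} (h0 : 0 < s) (hs : s < k) :
    xGen k s + (min s (k - s) - 1) = max s (k - s) - 1 := by
  unfold xGen
  split_ifs <;> omega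

/-- `- (Du/u)^e * Y = - χ(q)`. -/
theorem dS_pow_mul (h2 : D.q ≠ 2) (h4 : 4 ∣ D.M) {k s : ℕ} (h0 : 0 < s) (hs : s < k) :
    -(D.dS (hUnit4 D.M D.q h4) k s) ^ eK D.q k s
      * (wt1Four.chiS D.k D.q * D.AbH wt1Four ^ (2 * D.q ^ (max s (k - s) - 1)))
      = -wt1Four.chiS D.k D.q := by
  have hev : Even (D.q - 1) := by
    rcases D.hq.eq_two_or_odd' with h | ⟨m, hm⟩
    · exact absurd h h2
    · exact ⟨m, by omega⟩
  rw [D.dS_hUnit4 h4, eK_of_mid D.hq h0 hs, ← pow_mul,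
    Even.neg_pow (Even.mul_left (Even.mul_left hev _) _), ← pow_mul, AbH, ← pow_mul,
    ← xGen_add_min h0 hs, pow_add]
  have e : 2 * (D.q ^ xGen k s * (D.q ^ (min s (k - s) - 1) * (D.q - 1)))
      = (D.q - 1) * (2 * (D.q ^ xGen k s * D.q ^ (min s (k - s) - 1))) := by ring
  rw [e]
  generalize (D.q - 1) * (2 * (D.q ^ xGen k s * D.q ^ (min s (k - s) - 1))) = n
  have h1 : wt1Four.GL D.k ^ n * wt1Four.GLinv D.k ^ n = 1 := by
    rw [← mul_pow, wt1Four.GL_mul_GLinv, one_pow]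
  linear_combination (-wt1Four.chiS D.k D.q) * h1

/-- **the congruence for `q` odd** (hypothesis `hodd` of `hasDatumCtx_of_ends`). -/
theorem cong_odd_th (h2 : D.q ≠ 2) (h4 : 4 ∣ D.M) (K s : ℕ) (h0 : 0 < s) (hs : s < K) :
    ∃ (y : D.Fk K) (c : D.R), y ∈ intCl D.R (D.t K) ∧ IsUnit c ∧
      (D.OO K s hs.le).valuation
        (D.vp (hUnit4 D.M D.q h4) K s ^ eK D.q K s / (D.q : D.Fk K) * y
          - algebraMap D.R (D.Fk K) c) < 1 := by
  have hK : 1 ≤ K := by omega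
  refine ⟨D.Hinv wt1Four h4 K s, ((-(wt1Four.χ (D.q : ℤ)) : ℤ) : D.R),
    D.Hinv_mem wt1Four h4 (D.sysT hK) hK hs.le, ?_, ?_⟩
  · refine IsUnit.of_mul_eq_one ((-(wt1Four.χ (D.q : ℤ)) : ℤ) : D.R) ?_
    rw [← Int.cast_mul, neg_mul_neg, wt1Four.chi_sq, Int.cast_one]
  · refine D.val_of_redTo _ K s h0 hs (D.redsTo_Hinv_mid wt1Four h4 h0 hs) ?_
    rw [D.dS_pow_mul h2 h4 h0 hs, map_intCast, map_intCast, Int.cast_neg]
    exact (D.redsTo_chiS wt1Four).neg

end CtxK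

/-- **the modular datum exists at all the levels `M q^K`, `K ≥ 3`.** -/
theorem hasDatumCtx_th : HasDatumCtx :=
  hasDatumCtx_of_ends (fun D K hK haux _ => D.exists_endsOnly_th K hK haux)
    (fun D h2 h4 K s h0 hs => D.cong_odd_th h2 h4 K s h0 hs)

end Fermat.Agent.S45
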